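import Mathlib

/-!
# S17-DIV: `ℂ` has infinite transcendence degree over a countable subfield
-/

set_option autoImplicit false

namespace Fermat.Agent.S17.DIV

/-- cardinality argument: `ℂ` is algebraic over `K(B)` for a transcendence basis `B`; if `B` were
finite (or countable) `ℂ` would be countable. -/
theorem exists_algebraicIndependent_complex (K : Type) [Field K] [Countable K] [Algebra K ℂ]
    (g : ℕ) : ∃ y : Fin g → ℂ, AlgebraicIndependent K y := by
  classical
  obtain ⟨ι, v, hv⟩ := exists_isTranscendenceBasis' K ℂ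
  have hcard : Cardinal.mk ℂ = Cardinal.mk ι := by
    have := IsAlgClosed.cardinal_eq_cardinal_transcendence_basis_of_aleph0_lt' v hv
      (Cardinal.mk_le_aleph0) (by rw [Cardinal.mk_complex]; exact Cardinal.aleph0_lt_continuum)
    exact this
  have hinf : Infinite ι := by
    rw [Cardinal.infinite_iff, ← hcard, Cardinal.mk_complex]
    exact Cardinal.aleph0_le_continuum
  obtain ⟨e⟩ : Nonempty (Fin g ↪ ι) := ⟨(Fin.valEmbedding).trans (Infinite.natEmbedding ι)⟩
  exact ⟨v ∘ e, hv.1.comp e e.injective⟩

instance countable_algebraicClosure_rat : Countable (AlgebraicClosure ℚ) := by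
  rw [← Cardinal.mk_le_aleph0_iff]
  have : Algebra.IsAlgebraic ℚ (AlgebraicClosure ℚ) := AlgebraicClosure.isAlgebraic ℚ
  have := Algebra.IsAlgebraic.cardinalMk_le_max ℚ (AlgebraicClosure ℚ)
  simpa using this

end Fermat.Agent.S17.DIV
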