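import Fermat.Agent.S17.DIV.Defs
import Fermat.Agent.GR.I.CharTheoryMk

/-!
# S17-DIV: finiteness of the Kummer group over `ℂ` (from GR-A/B/I)

`T = GR.I.charTheory N`. Every Kummer `u` has a character `φ` with `Kills φ` (`T.exists_char`); the set
of such `φ` is finite (`GR.I.finite_kills n`); two Kummer elements with the same character are
equivalent (`T.kummerEquiv_of_hasChar`). Choose one representative for each `φ` which occurs.
See `Fermat/Agent/GR/I/Build.lean`, proof of `theta_surj`, for the way these are used.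
-/

set_option autoImplicit false

namespace Fermat.Agent.S17.DIV

theorem kfin_complex (N : ℕ) [NeZero N] {n : ℕ} (hn : 0 < n) : KFin ℂ N n := by
  classical
  have : NeZero n := ⟨hn.ne'⟩
  have T := GR.I.charTheory N
  let g : (Additive (CongruenceSubgroup.Gamma0 N) →+ ZMod n) → LaurentSeries ℂ := fun φ =>
    if h : ∃ s, GR.IsKummer (N := N) n s ∧ GR.A.HasChar N n s φ then h.choose else 0
  refine ⟨g '' {φ | GR.B.Kills φ}, (GR.I.finite_kills n).image g, fun u hu => ?_⟩
  obtain ⟨φ, hφ, hu'⟩ := T.exists_char n u hu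
  have h : ∃ s, GR.IsKummer (N := N) n s ∧ GR.A.HasChar N n s φ := ⟨u, hu, hu'⟩
  refine ⟨g φ, ⟨φ, hφ, rfl⟩, ?_⟩
  have hg : g φ = h.choose := dif_pos h
  rw [hg]
  exact T.kummerEquiv_of_hasChar h.choose_spec.1.1 h.choose_spec.2 hu'

end Fermat.Agent.S17.DIV
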