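import Fermat.Agent.S17.DIV.Main
import Fermat.Agent.S17.DIV.KFinC
import Fermat.Agent.S17.DIV.Indep
import Fermat.Agent.GR.S.Bridge

/-!
# S17-DIV: export: `J₀(N)(ℚ̄)` is divisible

Choose `ι : AlgebraicClosure ℚ →+* ℂ` (`IsAlgClosed.lift`), `letI := ι.toAlgebra`; apply
`exists_nsmul_eq_pic0 ℂ` with `kfin_complex`, `exists_algebraicIndependent_complex`; transport along
`GR.S.bar_eq_FF N : modularFunctionFieldBar N = FF (AlgebraicClosure ℚ) N` (generalize the
intermediate field and `subst`).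
-/

set_option autoImplicit false

namespace Fermat.Agent.S17.DIV

open ModularCurve

theorem exists_nsmul_eq (N : ℕ) [NeZero N] {n : ℕ} (hn : 0 < n) (x : JZero N) :
    ∃ y : JZero N, n • y = x := by
  have key : ∀ (F : IntermediateField (AlgebraicClosure ℚ) (LaurentSeries (AlgebraicClosure ℚ))),
      F = Fermat.Agent.GR.FF (AlgebraicClosure ℚ) N →
      ∀ x : AlgebraicCurve.Pic0 (AlgebraicClosure ℚ) F,
        ∃ y : AlgebraicCurve.Pic0 (AlgebraicClosure ℚ) F, n • y = x := by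
    rintro F rfl x
    let ι : AlgebraicClosure ℚ →+* ℂ :=
      (IsAlgClosed.lift (R := ℚ) (S := AlgebraicClosure ℚ) (M := ℂ) : AlgebraicClosure ℚ →ₐ[ℚ] ℂ)
    letI : Algebra (AlgebraicClosure ℚ) ℂ := ι.toAlgebra
    exact exists_nsmul_eq_pic0 ℂ hn (kfin_complex N hn)
      (fun g => exists_algebraicIndependent_complex (AlgebraicClosure ℚ) g) x
  exact key _ (Fermat.Agent.GR.S.bar_eq_FF N) x

theorem exists_two_nsmul_eq (N : ℕ) [NeZero N] (x : JZero N) : ∃ y : JZero N, 2 • y = x :=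
  exists_nsmul_eq N two_pos x

end Fermat.Agent.S17.DIV
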