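import Fermat.Agent.S17.FF.Index
import Fermat.Agent.S17.FF.Count
import Fermat.Agent.S17.FF.Sep
import Fermat.Agent.GR.C.FixedRep
import Fermat.Agent.GR.C.PlaceUp
import Fermat.Agent.GR.C.QPlace
import Fermat.Agent.Lib.AutExt

/-!
# S17-DIV: definitions

Goal of the module: `J₀(N)(ℚ̄) = n J₀(N)(ℚ̄)`.

* `NDiv n D`: the divisor `D` lies in `n Div + principal divisors`.
* `KFin Ω N n`: finiteness of the Kummer group `M_n(Ω)` (input from GR-A).
* `gal K N σ`: the semilinear automorphism of `FF Ω N` induced by `σ ∈ Aut(Ω/K)`.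
* `IsGeneric K w`: the place `w` of `FF Ω N` is trivial on `FF K N`.
* `up v`: the place of `FF Ω N` above the place `v` of `FF K N`.
-/

set_option autoImplicit false
set_option linter.unusedSectionVars false

noncomputable section

namespace Fermat.Agent.S17.DIV

open AlgebraicCurve ModularCurve Fermat.Agent.GR Fermat.Agent.GR.C Fermat.Agent.S17.FF

/-- `D ∈ n Div + Princ`. -/
def NDiv {k F : Type*} [Field k] [Field F] [Algebra k F] (n : ℕ) (D : Divisor k F) : Prop :=
  ∃ u : F, u ≠ 0 ∧ ∀ v : Place k F, (n : ℤ) ∣ v.ord u - D v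

/-- finiteness of the group of Kummer classes. -/
def KFin (Ω : Type*) [Field Ω] (N n : ℕ) : Prop :=
  ∃ S : Set (LaurentSeries Ω), S.Finite ∧
    ∀ u : LaurentSeries Ω, IsKummer (N := N) n u → ∃ s ∈ S, KummerEquiv N n s u

instance isFF_FF (k : Type*) [Field k] [CharZero k] (N : ℕ) [NeZero N] : IsFF k (FF k N) :=
  ⟨⟨jF k N, transcendental_jF k N, placeUp_finiteDimensional k N⟩⟩

/-- the semilinear automorphism of `FF Ω N` induced by `σ ∈ Aut(Ω/K)` (coefficientwise action). -/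
def gal (K : Type*) {Ω : Type*} [Field K] [Field Ω] [Algebra K Ω] (N : ℕ) :
    (Ω ≃ₐ[K] Ω) →* SemilinearAut Ω (FF Ω N) where
  toFun σ := ffAut N σ.toRingEquiv
  map_one' := (ffAut N).map_one
  map_mul' σ τ := (ffAut N).map_mul σ.toRingEquiv τ.toRingEquiv

theorem gal_apply {K Ω : Type*} [Field K] [Field Ω] [Algebra K Ω] (N : ℕ) (σ : Ω ≃ₐ[K] Ω) :
    gal K N σ = ffAut N σ.toRingEquiv := rfl

/-- the place `w` of `FF Ω N` is trivial on `FF K N`. -/
def IsGeneric (K : Type*) {Ω : Type*} [Field K] [Field Ω] [Algebra K Ω] {N : ℕ}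
    (w : Place Ω (FF Ω N)) : Prop :=
  ∀ f : FF K N, w.ord (bc N (algebraMap K Ω) f) = 0

/-- the place of `FF Ω N` above a place of `FF K N`. -/
def up {K : Type*} (Ω : Type*) [Field K] [Field Ω] [Algebra K Ω] [IsAlgClosed K] [CharZero K]
    {N : ℕ} [NeZero N] (v : Place K (FF K N)) : Place Ω (FF Ω N) :=
  (exists_place_extend (Ω := Ω) v).choose

theorem ord_up {K Ω : Type*} [Field K] [Field Ω] [Algebra K Ω] [IsAlgClosed K] [CharZero K]
    {N : ℕ} [NeZero N] (v : Place K (FF K N)) (f : FF K N) :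
    (up Ω v).ord (bc N (algebraMap K Ω) f) = v.ord f :=
  (exists_place_extend (Ω := Ω) v).choose_spec f

end Fermat.Agent.S17.DIV
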