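import Fermat.Agent.S17.DIV.Semilinear

/-!
# S17-DIV: the action of `Aut(Ω/K)` on `FF Ω N`

`gal K N σ = ffAut N σ.toRingEquiv` (by `rfl`); see `Fermat/Agent/GR/C/Basic.lean` for `ffAut_smul`,
`coe_ffAut_smul`, `ffAut_smul_jF`, `bc_bc`, `coe_bc`; `DIV/Semilinear.lean` for `val_smul`.
-/

set_option autoImplicit false
set_option linter.unusedSectionVars false

noncomputable section

namespace Fermat.Agent.S17.DIV

open AlgebraicCurve ModularCurve Fermat.Agent.GR Fermat.Agent.GR.C Fermat.Agent.S17.FF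

section Gal

variable {K Ω : Type*} [Field K] [Field Ω] [Algebra K Ω] {N : ℕ}

theorem baseAut_gal (σ : Ω ≃ₐ[K] Ω) (a : Ω) : SemilinearAut.baseAut (gal K N σ) a = σ a := by
  rfl

theorem gal_smul_bc (σ : Ω ≃ₐ[K] Ω) (f : FF K N) :
    gal K N σ • bc N (algebraMap K Ω) f = bc N (algebraMap K Ω) f := by
  rw [gal_apply, ffAut_smul, bc_bc]
  have h : ((σ.toRingEquiv : Ω ≃+* Ω) : Ω →+* Ω).comp (algebraMap K Ω) = algebraMap K Ω :=
    RingHom.ext fun a => σ.commutes a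
  rw [h]

theorem gal_smul_jF (σ : Ω ≃ₐ[K] Ω) : gal K N σ • jF Ω N = jF Ω N := by
  rw [gal_apply]
  exact ffAut_smul_jF N _

theorem coe_gal_smul (σ : Ω ≃ₐ[K] Ω) (f : FF Ω N) :
    ((gal K N σ • f : FF Ω N) : LaurentSeries Ω) =
      coeffMap (σ : Ω →+* Ω) (f : LaurentSeries Ω) := by
  rfl

theorem coeff_gal_smul (σ : Ω ≃ₐ[K] Ω) (f : FF Ω N) (m : ℤ) :
    ((gal K N σ • f : FF Ω N) : LaurentSeries Ω).coeff m = σ ((f : LaurentSeries Ω).coeff m) := by
  rw [coe_gal_smul, coeffMap_coeff]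
  rfl

theorem gal_smul_qPlace (σ : Ω ≃ₐ[K] Ω) : gal K N σ • qPlace Ω N = qPlace Ω N := by
  ext1
  rw [SemilinearAut.smul_toValuationSubring]
  ext f
  rw [ValuationSubring.mem_pointwise_smul_iff_inv_smul_mem]
  show (gal K N σ)⁻¹ • f ∈ qSubring Ω N ↔ f ∈ qSubring Ω N
  rw [mem_qSubring, mem_qSubring, ← map_inv, coe_gal_smul, coeffMap_order]

/-- the `j`-value of the conjugate place. -/
theorem val_gal_smul_jF [IsAlgClosed Ω] [CharZero Ω] [NeZero N] (σ : Ω ≃ₐ[K] Ω)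
    (w : Place Ω (FF Ω N)) : val (gal K N σ • w) (jF Ω N) = σ (val w (jF Ω N)) := by
  have h := val_smul (gal K N σ) w (jF Ω N)
  rw [gal_smul_jF, baseAut_gal] at h
  exact h

theorem ord_gal_smul_jF (σ : Ω ≃ₐ[K] Ω) (w : Place Ω (FF Ω N)) :
    (gal K N σ • w).ord (jF Ω N) = w.ord (jF Ω N) := by
  have h := SemilinearAut.ord_smul (gal K N σ) w (jF Ω N)
  rwa [gal_smul_jF] at h

theorem ord_gal_smul_bc (σ : Ω ≃ₐ[K] Ω) (w : Place Ω (FF Ω N)) (f : FF K N) :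
    (gal K N σ • w).ord (bc N (algebraMap K Ω) f) = w.ord (bc N (algebraMap K Ω) f) := by
  have h := SemilinearAut.ord_smul (gal K N σ) w (bc N (algebraMap K Ω) f)
  rwa [gal_smul_bc] at h

theorem val_gal_smul_bc [IsAlgClosed Ω] [CharZero Ω] [NeZero N] (σ : Ω ≃ₐ[K] Ω)
    (w : Place Ω (FF Ω N)) (f : FF K N) :
    val (gal K N σ • w) (bc N (algebraMap K Ω) f) = σ (val w (bc N (algebraMap K Ω) f)) := by
  have h := val_smul (gal K N σ) w (bc N (algebraMap K Ω) f)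
  rw [gal_smul_bc, baseAut_gal] at h
  exact h

end Gal

end Fermat.Agent.S17.DIV
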