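import Fermat.Agent.S17.DIV.Coords
import Fermat.Agent.S17.DIV.Gal

/-!
# S17-DIV: Riemann-Roch spaces of `Aut(Ω/K)`-stable divisors are defined over `K` (BC)

`exists_bc_eq_of_fixed`: all Laurent coefficients of `f` are fixed by `Aut(Ω/K)`
(`coeff_gal_smul`), hence lie in `K` (`Lib.AutExt.mem_range_algebraMap_of_fixed`); so
`f = coeffMap (algebraMap K Ω) f₀` and `f₀ ∈ FF K N` by `GR.C.mem_FF_of_coeffMap_mem`.

`span_bc_eq`: apply `span_fixed_of_coords` to `W = FF Ω N`, the coordinates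
`c m f = (f : LaurentSeries Ω).coeff m`, `G = Aut(Ω/K)`, `T σ f = gal K N σ • f`, `V = LSpace D`
(stable by `smul_mem_LSpace_iff` and `hD`).
-/

set_option autoImplicit false
set_option linter.unusedSectionVars false

noncomputable section

namespace Fermat.Agent.S17.DIV

open AlgebraicCurve ModularCurve Fermat.Agent.GR Fermat.Agent.GR.C Fermat.Agent.S17.FF

variable {K Ω : Type} [Field K] [Field Ω] [Algebra K Ω] [IsAlgClosed K] [CharZero K]
  [IsAlgClosed Ω] [CharZero Ω] {N : ℕ} [NeZero N]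

/-- an element of `FF Ω N` fixed by `Aut(Ω/K)` comes from `FF K N`. -/
theorem exists_bc_eq_of_fixed (f : FF Ω N) (h : ∀ σ : Ω ≃ₐ[K] Ω, gal K N σ • f = f) :
    ∃ e : FF K N, bc N (algebraMap K Ω) e = f := by
  obtain ⟨f₀, hf₀⟩ := Root_exists_of_coeff_mem (K := K) (f : LaurentSeries Ω) (by
    intro m
    apply Fermat.Agent.Lib.AutExt.mem_range_algebraMap_of_fixed
    intro σ
    rw [← coeff_gal_smul, h σ])
  have hmem : f₀ ∈ FF K N := mem_FF_of_coeffMap_mem (Ω := Ω) (by rw [hf₀]; exact f.2)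
  exact ⟨⟨f₀, hmem⟩, Subtype.ext hf₀⟩

/-- the Laurent coefficients as linear coordinates on `FF Ω N`. -/
def BaseChange_coord (m : ℤ) : FF Ω N →ₗ[Ω] Ω where
  toFun f := (f : LaurentSeries Ω).coeff m
  map_add' f g := rfl
  map_smul' c f := placeUp_coe_smul c f m

theorem span_bc_eq (D : Divisor Ω (FF Ω N)) (hD : ∀ σ : Ω ≃ₐ[K] Ω, gal K N σ • D = D) :
    Submodule.span Ω {f | f ∈ LSpace D ∧ ∃ e : FF K N, bc N (algebraMap K Ω) e = f} =
      LSpace D := by
  have key := span_fixed_of_coords (Ω := Ω) (W := FF Ω N) (I := ℤ) (G := Ω ≃ₐ[K] Ω)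
    (fun m => BaseChange_coord (Ω := Ω) (N := N) m)
    (fun x hx => Subtype.ext (HahnSeries.ext (funext fun m => hx m)))
    (fun σ => σ.toRingEquiv) (fun σ f => gal K N σ • f)
    (fun σ f m => coeff_gal_smul σ f m) (LSpace D)
    (fun σ f hf => by
      have := (smul_mem_LSpace_iff (gal K N σ) D f).2 hf
      rwa [hD σ] at this)
  refine Eq.trans ?_ key
  congr 1
  ext f
  constructor
  · rintro ⟨hf, e, rfl⟩
    exact ⟨hf, fun σ => gal_smul_bc σ e⟩
  · rintro ⟨hf, hfix⟩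
    exact ⟨hf, exists_bc_eq_of_fixed f hfix⟩

end Fermat.Agent.S17.DIV
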