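import Mathlib

/-!
# S17-DIV: the relative algebraic closure `clo K S` of `K(S)` in `Ω`, transcendence degree
-/

set_option autoImplicit false

noncomputable section

namespace Fermat.Agent.S17.DIV

/-- the relative algebraic closure of `K(S)` in `Ω`. -/
def clo (K : Type*) {Ω : Type*} [Field K] [Field Ω] [Algebra K Ω] (S : Set Ω) :
    IntermediateField K Ω :=
  (algebraicClosure (IntermediateField.adjoin K S) Ω).restrictScalars K

variable {K Ω : Type*} [Field K] [Field Ω] [Algebra K Ω]

theorem mem_clo_iff {S : Set Ω} {x : Ω} :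
    x ∈ clo K S ↔ IsAlgebraic (IntermediateField.adjoin K S) x := by
  unfold clo
  rw [IntermediateField.mem_restrictScalars, mem_algebraicClosure_iff]

/-- algebraic over a smaller intermediate field implies algebraic over a bigger one. -/
theorem Clo_isAlgebraic_of_le {E F : IntermediateField K Ω} (h : E ≤ F) {x : Ω}
    (hx : IsAlgebraic E x) : IsAlgebraic F x := by
  obtain ⟨P, hP0, hP⟩ := hx
  refine ⟨P.map (IntermediateField.inclusion h).toRingHom,
    (Polynomial.map_ne_zero_iff (RingHom.injective _)).mpr hP0, ?_⟩
  rw [Polynomial.aeval_def, Polynomial.eval₂_map]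
  rw [Polynomial.aeval_def] at hP
  exact hP

theorem subset_clo (S : Set Ω) : S ⊆ (clo K S : Set Ω) := by
  intro x hx
  rw [SetLike.mem_coe, mem_clo_iff]
  exact isAlgebraic_algebraMap
    (⟨x, IntermediateField.subset_adjoin K S hx⟩ : IntermediateField.adjoin K S)

theorem clo_mono {S T : Set Ω} (h : S ⊆ T) : clo K S ≤ clo K T := by
  intro x hx
  rw [mem_clo_iff] at hx ⊢
  exact Clo_isAlgebraic_of_le (IntermediateField.adjoin.mono K S T h) hx

/-- `clo K S` is relatively algebraically closed in `Ω`. -/
theorem mem_clo_of_isAlgebraic {S : Set Ω} {x : Ω} (h : IsAlgebraic (clo K S) x) :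
    x ∈ clo K S := by
  rw [mem_clo_iff]
  have h' : IsAlgebraic (algebraicClosure (IntermediateField.adjoin K S) Ω) x := h
  exact h'.restrictScalars (IntermediateField.adjoin K S)

theorem clo_le_of_subset {S T : Set Ω} (h : S ⊆ (clo K T : Set Ω)) : clo K S ≤ clo K T := by
  intro x hx
  rw [mem_clo_iff] at hx
  exact mem_clo_of_isAlgebraic
    (Clo_isAlgebraic_of_le (IntermediateField.adjoin_le_iff.mpr h) hx)

instance isAlgClosed_clo [IsAlgClosed Ω] (S : Set Ω) : IsAlgClosed (clo K S) :=
  (algebraicClosure.isAlgClosure (F := IntermediateField.adjoin K S) (E := Ω)).isAlgClosed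

instance charZero_clo [CharZero K] (S : Set Ω) : CharZero (clo K S) :=
  charZero_of_injective_algebraMap (algebraMap K (clo K S)).injective

theorem range_algebraMap_clo (S : Set Ω) :
    Set.range (algebraMap (clo K S) Ω) = (clo K S : Set Ω) := by
  ext x
  constructor
  · rintro ⟨y, rfl⟩
    exact y.2
  · intro hx
    exact ⟨⟨x, hx⟩, rfl⟩

open scoped IntermediateField.algebraAdjoinAdjoin in
/-- algebraic over the field `K(S)` implies algebraic over the ring `K[S]`. -/
theorem Clo_isAlgebraic_adjoin {S : Set Ω} {x : Ω}
    (hx : IsAlgebraic (IntermediateField.adjoin K S) x) : IsAlgebraic (Algebra.adjoin K S) x :=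
  hx.restrictScalars (Algebra.adjoin K S)

/-- a member of an algebraically independent family is not algebraic over the others. -/
theorem not_mem_clo_of_algebraicIndependent {ι : Type*} {y : ι → Ω}
    (hy : AlgebraicIndependent K y) {i : ι} {s : Set ι} (hi : i ∉ s) : y i ∉ clo K (y '' s) := by
  intro h
  rw [mem_clo_iff] at h
  exact hy.transcendental_adjoin hi (Clo_isAlgebraic_adjoin h)

/-- (TD) `g` algebraically independent elements cannot be algebraic over a field generated by
fewer than `g` elements. -/
theorem card_le_of_algebraicIndependent {g : ℕ} {y : Fin g → Ω} (hy : AlgebraicIndependent K y)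
    (X : Finset Ω) (h : ∀ i, y i ∈ clo K (X : Set Ω)) : g ≤ X.card := by
  let M := AlgebraicIndependent.matroid K Ω
  have hI : M.Indep (Set.range y) := by
    rw [AlgebraicIndependent.matroid_indep_iff]
    exact hy.coe_range
  have hsub : Set.range y ⊆ M.closure (X : Set Ω) := by
    rintro _ ⟨i, rfl⟩
    rw [AlgebraicIndependent.matroid_closure_eq, SetLike.mem_coe, Subalgebra.mem_algebraicClosure]
    exact Clo_isAlgebraic_adjoin (mem_clo_iff.mp (h i))
  have h1 : (Set.range y).encard ≤ (X : Set Ω).encard := by
    rw [← hI.eRk_eq_encard]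
    calc M.eRk (Set.range y) ≤ M.eRk (M.closure (X : Set Ω)) := M.eRk_mono hsub
      _ = M.eRk (X : Set Ω) := M.eRk_closure_eq _
      _ ≤ (X : Set Ω).encard := M.eRk_le_encard _
  have h2 : (Set.range y).encard = g := by
    rw [← Set.image_univ, hy.injective.encard_image, Set.encard_univ]
    simp
  rw [h2, Set.encard_coe_eq_coe_finsetCard] at h1
  exact_mod_cast h1

end Fermat.Agent.S17.DIV
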