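import Fermat.Agent.S17.DIV.Defs

/-!
# S17-DIV: pole divisors
-/

set_option autoImplicit false
set_option linter.unusedSectionVars false

noncomputable section

namespace Fermat.Agent.S17.DIV

open AlgebraicCurve ModularCurve Fermat.Agent.GR Fermat.Agent.GR.C Fermat.Agent.S17.FF

variable {K F : Type*} [Field K] [Field F] [Algebra K F] [IsAlgClosed K] [CharZero K] [IsFF K F]

/-- an effective divisor of degree zero is zero. -/
theorem eq_zero_of_nonneg_of_degree {D : Divisor K F} (h : 0 ≤ D) (hD : Divisor.degree D = 0) :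
    D = 0 := by
  rw [degree_eq_sum] at hD
  have h0 : ∀ v ∈ D.support, D v = 0 :=
    (Finset.sum_eq_zero_iff_of_nonneg fun v _ => h v).1 hD
  refine Finsupp.ext fun v => ?_
  by_cases hv : v ∈ D.support
  · simpa using h0 v hv
  · simpa using Finsupp.notMem_support_iff.1 hv

theorem poleDiv_nonneg (f : F) : 0 ≤ poleDiv (K := K) f := by
  intro v
  rw [poleDiv_apply]
  exact le_max_left _ _

theorem divf_eq_poleDiv_sub (f : F) : divf (K := K) f = poleDiv f⁻¹ - poleDiv f := by
  refine Finsupp.ext fun v => ?_
  rw [Finsupp.sub_apply, divf_apply, poleDiv_apply, poleDiv_apply, v.ord_inv]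
  rcases le_total 0 (v.ord f) with h | h
  · rw [max_eq_right (by omega), max_eq_left (by omega)]; omega
  · rw [max_eq_left (by omega), max_eq_right (by omega)]; omega

theorem mem_support_poleDiv_inv {f : F} {v : Place K F} :
    v ∈ (poleDiv (K := K) f⁻¹).support ↔ 0 < v.ord f := by
  rw [Finsupp.mem_support_iff, poleDiv_apply, v.ord_inv, neg_neg]
  constructor
  · intro h
    by_contra h'
    exact h (max_eq_left (by omega))
  · intro h
    rw [max_eq_right h.le]
    omega

/-- the order at a pole does not change when a constant is subtracted. -/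
theorem PoleDiv_ord_sub_of_neg {f : F} {v : Place K F} (h : v.ord f < 0) (c : K) :
    v.ord (f - algebraMap K F c) = v.ord f := by
  have hf : f ≠ 0 := by
    rintro rfl
    simp at h
  have h2 : v.ord f < v.ord (-algebraMap K F c) := by
    rw [← map_neg, Fermat.Agent.S24.Zeros.ord_algebraMap]
    exact h
  rw [sub_eq_add_neg]
  exact Fermat.Agent.S24.Zeros.ord_add_eq_of_lt v h2 hf

/-- subtracting a constant from a function regular at `v` gives a function regular at `v`. -/
theorem PoleDiv_ord_sub_nonneg {f : F} {v : Place K F} (h : 0 ≤ v.ord f) (c : K) :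
    0 ≤ v.ord (f - algebraMap K F c) := by
  by_cases h0 : f - algebraMap K F c = 0
  · rw [h0]; simp
  have h1 : f + -algebraMap K F c ≠ 0 := by rwa [← sub_eq_add_neg]
  have h2 := Fermat.Agent.S24.Zeros.min_ord_le_ord_add v h1
  rw [← map_neg, Fermat.Agent.S24.Zeros.ord_algebraMap, map_neg, ← sub_eq_add_neg] at h2
  exact le_trans (le_min h le_rfl) h2

theorem poleDiv_sub_algebraMap (f : F) (c : K) :
    poleDiv (K := K) (f - algebraMap K F c) = poleDiv f := by
  refine Finsupp.ext fun v => ?_
  rw [poleDiv_apply, poleDiv_apply]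
  rcases lt_or_ge (v.ord f) 0 with h | h
  · rw [PoleDiv_ord_sub_of_neg h c]
  · have h' := PoleDiv_ord_sub_nonneg h c
    rw [max_eq_left (by omega), max_eq_left (by omega)]

/-- an effective divisor of large degree is the pole divisor of a function
(`exists_mem_LSpace_forall_ord_eq` with `S = supp D`). -/
theorem exists_poleDiv_eq {D : Divisor K F} (h : 0 ≤ D) (hD : cBound K F + 1 ≤ Divisor.degree D) :
    ∃ t : F, poleDiv (K := K) t = D := by
  obtain ⟨f, hf, hf0, hS⟩ := exists_mem_LSpace_forall_ord_eq hD D.support
  refine ⟨f, Finsupp.ext fun v => ?_⟩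
  rw [poleDiv_apply]
  have hDv : 0 ≤ D v := h v
  by_cases hv : v ∈ D.support
  · rw [hS v hv, neg_neg]
    exact max_eq_right hDv
  · have h0 : D v = 0 := Finsupp.notMem_support_iff.1 hv
    rcases (mem_LSpace.1 hf) with h1 | h1
    · exact absurd h1 hf0
    · have h2 := h1 v
      rw [h0] at h2 ⊢
      exact max_eq_left (by omega)

/-- a function with a nonzero pole divisor is transcendental. -/
theorem transcendental_of_poleDiv_ne_zero {t : F} (h : poleDiv (K := K) t ≠ 0) :
    Transcendental K t := by
  obtain ⟨v, hv⟩ := Finsupp.ne_iff.1 h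
  refine transcendental_of_ord_ne_zero (v := v) ?_
  intro h0
  apply hv
  rw [poleDiv_apply, h0]
  simp

end Fermat.Agent.S17.DIV
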