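import Fermat.Agent.S17.DIV.Semilinear
import Fermat.Agent.S17.DIV.PoleDiv

/-!
# S17-DIV: the subgroup `n Div + Princ` of the divisor group
-/

set_option autoImplicit false
set_option linter.unusedSectionVars false

noncomputable section

namespace Fermat.Agent.S17.DIV

open AlgebraicCurve ModularCurve Fermat.Agent.GR Fermat.Agent.GR.C Fermat.Agent.S17.FF

variable {K F : Type*} [Field K] [Field F] [Algebra K F] {n : ℕ}

theorem ndiv_zero : NDiv n (0 : Divisor K F) := by
  refine ⟨1, one_ne_zero, fun v => ?_⟩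
  simp [Place.ord_one]

theorem NDiv.add {D E : Divisor K F} (hD : NDiv n D) (hE : NDiv n E) : NDiv n (D + E) := by
  obtain ⟨u, hu, hu'⟩ := hD
  obtain ⟨w, hw, hw'⟩ := hE
  refine ⟨u * w, mul_ne_zero hu hw, fun v => ?_⟩
  rw [Place.ord_mul v hu hw, Finsupp.add_apply]
  have := dvd_add (hu' v) (hw' v)
  have he : v.ord u + v.ord w - (D v + E v) = v.ord u - D v + (v.ord w - E v) := by ring
  rw [he]; exact this

theorem NDiv.neg {D : Divisor K F} (hD : NDiv n D) : NDiv n (-D) := by
  obtain ⟨u, hu, hu'⟩ := hD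
  refine ⟨u⁻¹, inv_ne_zero hu, fun v => ?_⟩
  rw [Place.ord_inv, Finsupp.neg_apply]
  have := (dvd_neg.2 (hu' v))
  have he : -v.ord u - -D v = -(v.ord u - D v) := by ring
  rw [he]; exact this

theorem NDiv.sub {D E : Divisor K F} (hD : NDiv n D) (hE : NDiv n E) : NDiv n (D - E) := by
  rw [sub_eq_add_neg]
  exact hD.add hE.neg

theorem NDiv.zsmul {D : Divisor K F} (hD : NDiv n D) (m : ℤ) : NDiv n (m • D) := by
  obtain ⟨u, hu, hu'⟩ := hD
  refine ⟨u ^ m, zpow_ne_zero m hu, fun v => ?_⟩
  rw [Place.ord_zpow, Finsupp.smul_apply, smul_eq_mul, ← mul_sub]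
  exact Dvd.dvd.mul_left (hu' v) m

theorem ndiv_nsmul (D : Divisor K F) : NDiv n (n • D) := by
  refine ⟨1, one_ne_zero, fun v => ?_⟩
  rw [Place.ord_one, Finsupp.smul_apply, zero_sub, dvd_neg, nsmul_eq_mul]
  exact Dvd.intro _ rfl

theorem ndiv_sum {ι : Type*} (s : Finset ι) (D : ι → Divisor K F) (h : ∀ i ∈ s, NDiv n (D i)) :
    NDiv n (∑ i ∈ s, D i) := by
  classical
  induction s using Finset.induction_on with
  | empty => simpa using ndiv_zero
  | insert a s ha ih =>
    rw [Finset.sum_insert ha]
    exact (h a (Finset.mem_insert_self a s)).add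
      (ih fun i hi => h i (Finset.mem_insert_of_mem hi))

theorem NDiv.smul {D : Divisor K F} (hD : NDiv n D) (g : SemilinearAut K F) :
    NDiv n (g • D) := by
  obtain ⟨u, hu, hu'⟩ := hD
  refine ⟨g • u, ?_, fun v => ?_⟩
  · intro h0
    apply hu
    have := congrArg (fun x => g⁻¹ • x) h0
    simpa using this
  · have h1 : v.ord (g • u) = (g⁻¹ • v).ord u := by
      have := SemilinearAut.ord_smul g (g⁻¹ • v) u
      rwa [smul_inv_smul] at this
    rw [h1, SemilinearAut.divisor_smul_apply]
    exact hu' _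

variable [IsAlgClosed K] [CharZero K] [IsFF K F]

theorem ndiv_divf (f : F) : NDiv n (divf (K := K) f) := by
  by_cases hf : f = 0
  · refine ⟨1, one_ne_zero, fun v => ?_⟩
    simp [hf, Place.ord_one, Place.ord_zero]
  · refine ⟨f, hf, fun v => ?_⟩
    simp

theorem ndiv_iff {D : Divisor K F} :
    NDiv n D ↔ ∃ (u : F) (E : Divisor K F), u ≠ 0 ∧ D = divf u + n • E := by
  classical
  constructor
  · rintro ⟨u, hu, hu'⟩
    by_cases hn : n = 0
    · subst hn
      refine ⟨u, 0, hu, ?_⟩
      ext v
      have := hu' v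
      simp only [Nat.cast_zero, zero_dvd_iff] at this
      simp only [smul_zero, add_zero, divf_apply]
      omega
    · choose c hc using hu'
      have hn' : (n : ℤ) ≠ 0 := by exact_mod_cast hn
      let E : Divisor K F := Finsupp.onFinset ((D - divf u).support) (fun v => - c v) (by
        intro v hv
        rw [Finsupp.mem_support_iff, Finsupp.sub_apply, divf_apply]
        intro h0
        apply hv
        have h1 := hc v
        have h2 : (n : ℤ) * c v = 0 := by rw [← h1]; omega
        rcases mul_eq_zero.1 h2 with h3 | h3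
        · exact absurd h3 hn'
        · rw [h3, neg_zero])
      refine ⟨u, E, hu, ?_⟩
      ext v
      have h1 := hc v
      simp only [Finsupp.add_apply, divf_apply, Finsupp.smul_apply, E, Finsupp.onFinset_apply,
        nsmul_eq_mul, mul_neg]
      rw [← h1]; ring
  · rintro ⟨u, E, hu, rfl⟩
    exact (ndiv_divf u).add (ndiv_nsmul E)

/-- `Z = Σ Z(v) v`, so `Z - deg Z · w = Σ Z(v) (v - w)`. -/
theorem ndiv_of_support (Z : Divisor K F) (w : Place K F)
    (h : ∀ v ∈ Z.support, NDiv n (Finsupp.single v 1 - Finsupp.single w 1 : Divisor K F)) :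
    NDiv n (Z - Divisor.degree Z • Finsupp.single w 1) := by
  classical
  have key : Z - Divisor.degree Z • Finsupp.single w 1 =
      ∑ v ∈ Z.support, Z v • (Finsupp.single v 1 - Finsupp.single w 1 : Divisor K F) := by
    simp only [smul_sub, Finset.sum_sub_distrib]
    congr 1
    · conv_lhs => rw [← Finsupp.sum_single Z]
      rw [Finsupp.sum]
      apply Finset.sum_congr rfl
      intro v _
      rw [Finsupp.smul_single, smul_eq_mul, mul_one]
    · rw [degree_eq_sum, Finsupp.sum, Finset.sum_smul]
  rw [key]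
  exact ndiv_sum _ _ fun v hv => (h v hv).zsmul _

/-- genus `0`: a divisor of degree `0` is principal (`riemann_le` gives `ℓ(D) ≥ 1`, and a nonzero
`f ∈ L(D)` has `div f + D ≥ 0` of degree `0`). -/
theorem ndiv_of_genus_eq_zero (hg : genus K F = 0) {D : Divisor K F}
    (hD : Divisor.degree D = 0) : NDiv n D := by
  have h1 := riemann_le D
  rw [hD, hg] at h1
  have h2 : 0 < ell D := by
    have : (0 : ℤ) < ell D := by
      simp only [Nat.cast_zero, sub_zero, zero_add] at h1
      omega
    exact_mod_cast this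
  obtain ⟨f, hf, hf0⟩ := ell_pos_iff.1 h2
  have h3 : ∀ v : Place K F, -D v ≤ v.ord f := by
    rcases mem_LSpace.1 hf with h | h
    · exact absurd h hf0
    · exact h
  have h4 : divf (K := K) f + D = 0 := by
    apply eq_zero_of_nonneg_of_degree
    · intro v
      have := h3 v
      simp only [Finsupp.coe_zero, Pi.zero_apply, Finsupp.add_apply, divf_apply]
      omega
    · rw [map_add, degree_divf, hD, add_zero]
  have h5 : D = - divf (K := K) f := by
    rw [eq_neg_iff_add_eq_zero, add_comm]; exact h4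
  rw [h5]
  exact (ndiv_divf f).neg

end Fermat.Agent.S17.DIV
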