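import Fermat.Agent.S17.DIV.Fibre
import Fermat.Agent.S17.DIV.NDiv

/-!
# S17-DIV: (C1) pole divisors of functions defined over `K` are `≡ deg · w`

Let `s = val w (bc t)`, `u = bc t - s`. `divf u = Z - poleDiv (bc t)` with `Z = poleDiv u⁻¹`
(`divf_eq_poleDiv_sub`, `poleDiv_sub_algebraMap`). Every `w' ∈ supp Z` is a zero of `u`
(`mem_support_poleDiv_inv`), so `bc t` is regular at `w'` with value `s` (`FF.val_eq_iff`), so
`w' = τ • w` (`exists_gal_smul_eq`) and `w' - w ∈ NDiv` by `h`. By `ndiv_of_support`,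
`Z - deg Z • w ∈ NDiv`; `deg Z = deg (poleDiv (bc t))` by `FF.degree_divf`; subtract `divf u`.
-/

set_option autoImplicit false
set_option linter.unusedSectionVars false

noncomputable section

namespace Fermat.Agent.S17.DIV

open AlgebraicCurve ModularCurve Fermat.Agent.GR Fermat.Agent.GR.C Fermat.Agent.S17.FF

variable {K Ω : Type} [Field K] [Field Ω] [Algebra K Ω] [IsAlgClosed K] [CharZero K]
  [IsAlgClosed Ω] [CharZero Ω] {N : ℕ} [NeZero N]

theorem ndiv_poleDiv {n : ℕ} {w : Place Ω (FF Ω N)} (hw : IsGeneric K w)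
    (h : ∀ σ : Ω ≃ₐ[K] Ω,
      NDiv n (Finsupp.single (gal K N σ • w) 1 - Finsupp.single w 1 : Divisor Ω (FF Ω N)))
    {t : FF K N} (ht : Transcendental K t) :
    NDiv n (poleDiv (K := Ω) (bc N (algebraMap K Ω) t) -
      Divisor.degree (poleDiv (K := Ω) (bc N (algebraMap K Ω) t)) • Finsupp.single w 1) := by
  set T := bc N (algebraMap K Ω) t with hT
  set s := val w T with hs
  set u := T - algebraMap Ω (FF Ω N) s with hu
  have e1 : divf (K := Ω) u = poleDiv (K := Ω) u⁻¹ - poleDiv (K := Ω) T := by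
    rw [divf_eq_poleDiv_sub, hu, poleDiv_sub_algebraMap]
  set Z := poleDiv (K := Ω) u⁻¹ with hZ
  have hZs : ∀ v ∈ Z.support,
      NDiv n (Finsupp.single v 1 - Finsupp.single w 1 : Divisor Ω (FF Ω N)) := by
    intro v hv
    have hv' : 0 < v.ord u := mem_support_poleDiv_inv.1 hv
    have h0 : 0 ≤ v.ord T := by
      by_contra hneg
      push Not at hneg
      have h1 := PoleDiv_ord_sub_of_neg hneg s
      rw [← hu] at h1
      omega
    have hval : val v T = s := (val_eq_iff v h0 s).2 (Or.inr hv')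
    obtain ⟨τ, rfl⟩ := exists_gal_smul_eq hw ht h0 hval
    exact h τ
  have h1 := ndiv_of_support (n := n) Z w hZs
  have hdeg : Divisor.degree Z = Divisor.degree (poleDiv (K := Ω) T) := by
    have h2 := degree_divf (K := Ω) u
    rw [e1, map_sub] at h2
    omega
  have e2 : poleDiv (K := Ω) T - Divisor.degree (poleDiv (K := Ω) T) • Finsupp.single w 1 =
      (Z - Divisor.degree Z • Finsupp.single w 1) - divf (K := Ω) u := by
    rw [e1, hdeg]
    abel
  rw [e2]
  exact h1.sub (ndiv_divf u)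

end Fermat.Agent.S17.DIV
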