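import Fermat.Agent.S17.DIV.Moving
import Fermat.Agent.S17.DIV.Pole

/-!
# S17-DIV: differences of constant points lie in `n Div + Princ` over `Ω`

Genus `0`: `ndiv_of_genus_eq_zero`. Genus `> 0`: take `S, w` from `exists_moving`, `L = clo K S`.
For `m` large there are `t₂, t₃ ∈ FF K N` with `poleDiv t₂ = (m+1) ∞`, `poleDiv t₃ = m ∞ + R`
(`exists_poleDiv_eq` over `K`), transcendental over `K` (`transcendental_of_poleDiv_ne_zero`).
Their base changes to `FF L N` are transcendental over `L` (`transcendental_bc` for `(K, L)`).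
`ndiv_poleDiv` for the pair `(L, Ω)`, `bc_bc` + `IsScalarTower.algebraMap_eq`, and `poleDiv_bc`,
`degree_mapDomain_up` for the pair `(K, Ω)` give
`(m+1) up ∞ - (m+1) w ∈ NDiv` and `m up ∞ + up R - (m+1) w ∈ NDiv`; subtract.
-/

set_option autoImplicit false
set_option linter.unusedSectionVars false

noncomputable section

namespace Fermat.Agent.S17.DIV

open AlgebraicCurve ModularCurve Fermat.Agent.GR Fermat.Agent.GR.C Fermat.Agent.S17.FF

variable {K Ω : Type} [Field K] [Field Ω] [Algebra K Ω] [IsAlgClosed K] [CharZero K]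
  [IsAlgClosed Ω] [CharZero Ω] {N : ℕ} [NeZero N]

/-- (C1) for an effective divisor of large degree defined over `K`. -/
theorem Const_ndiv_mapDomain {n : ℕ} {S : Set Ω} {w : Place Ω (FF Ω N)}
    (hw : IsGeneric (clo K S) w)
    (hmov : ∀ σ : Ω ≃ₐ[clo K S] Ω, NDiv n
        (Finsupp.single (gal (clo K S) N σ • w) 1 - Finsupp.single w 1 : Divisor Ω (FF Ω N)))
    {D : Divisor K (FF K N)} (h0 : 0 ≤ D) (hD : cBound K (FF K N) + 1 ≤ Divisor.degree D)
    (hne : D ≠ 0) :
    NDiv n ((Finsupp.mapDomain (up Ω) D : Divisor Ω (FF Ω N)) -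
      Divisor.degree D • Finsupp.single w 1) := by
  obtain ⟨t, ht⟩ := exists_poleDiv_eq h0 hD
  have htr : Transcendental K t := transcendental_of_poleDiv_ne_zero (by rw [ht]; exact hne)
  have htr' : Transcendental (clo K S) (bc N (algebraMap K (clo K S)) t) :=
    transcendental_bc (K := K) (Ω := clo K S) htr
  have h := ndiv_poleDiv (K := clo K S) (Ω := Ω) hw hmov htr'
  rw [bc_bc, ← IsScalarTower.algebraMap_eq, poleDiv_bc, ht, degree_mapDomain_up] at h
  exact h

theorem ndiv_up_sub {n : ℕ} (hn : 0 < n) (hK : KFin Ω N n)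
    (hInd : ∀ g : ℕ, ∃ y : Fin g → Ω, AlgebraicIndependent K y) (R : Place K (FF K N)) :
    NDiv n (Finsupp.single (up Ω R) 1 - Finsupp.single (up Ω (qPlace K N)) 1 :
      Divisor Ω (FF Ω N)) := by
  rcases Nat.eq_zero_or_pos (genus Ω (FF Ω N)) with hg | hg
  · refine ndiv_of_genus_eq_zero hg ?_
    rw [map_sub, degree_single', degree_single', sub_self]
  obtain ⟨S, w, hw, hmov⟩ := exists_moving (K := K) hn hK hg (hInd _)
  set m : ℕ := (cBound K (FF K N) + 1).toNat with hm
  have hm' : cBound K (FF K N) + 1 ≤ (m : ℤ) := Int.self_le_toNat _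
  have h2 := Const_ndiv_mapDomain (K := K) hw hmov
    (D := Finsupp.single (qPlace K N) ((m : ℤ) + 1)) ?_ ?_ ?_
  have h3 := Const_ndiv_mapDomain (K := K) hw hmov
    (D := Finsupp.single (qPlace K N) (m : ℤ) + Finsupp.single R 1) ?_ ?_ ?_
  · rw [Finsupp.mapDomain_single, degree_single'] at h2
    rw [Finsupp.mapDomain_add, Finsupp.mapDomain_single, Finsupp.mapDomain_single, map_add,
      degree_single', degree_single'] at h3
    have h4 := h3.sub h2
    have e : (Finsupp.single (up Ω (qPlace K N)) (m : ℤ) + Finsupp.single (up Ω R) 1 -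
        ((m : ℤ) + 1) • Finsupp.single w 1 -
        (Finsupp.single (up Ω (qPlace K N)) ((m : ℤ) + 1) -
          ((m : ℤ) + 1) • Finsupp.single w 1) : Divisor Ω (FF Ω N)) =
        Finsupp.single (up Ω R) 1 - Finsupp.single (up Ω (qPlace K N)) 1 := by
      rw [Finsupp.single_add]
      abel
    rwa [e] at h4
  · exact add_nonneg (Finsupp.single_nonneg.2 (Int.natCast_nonneg m))
      (Finsupp.single_nonneg.2 zero_le_one)
  · rw [map_add, degree_single', degree_single']; omega
  · intro h0
    have := congrArg Divisor.degree h0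
    rw [map_add, degree_single', degree_single', map_zero] at this
    omega
  · exact Finsupp.single_nonneg.2 (by positivity)
  · rw [degree_single']; omega
  · intro h0
    have := congrArg Divisor.degree h0
    rw [degree_single', map_zero] at this
    omega

end Fermat.Agent.S17.DIV
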