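import Mathlib

/-!
# S17-DIV: descent of subspaces by coordinates (DESC)

A finite dimensional subspace `V` of a vector space `W` with a separating family of linear
coordinates, stable under maps `T g` which act on the coordinates through field automorphisms, is
spanned by vectors fixed by all `T g`.

Proof: the restrictions `c i |_V` span the dual of `V` (they separate points); choose `i_1..i_d`
such that they form a basis of the dual, and let `e_1..e_d` be the dual basis of `V`. Then
`c i_k (T g e_l) = a g (δ_kl) = δ_kl = c i_k e_l`, hence `T g e_l = e_l`.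
-/

set_option autoImplicit false

namespace Fermat.Agent.S17.DIV

theorem span_fixed_of_coords {Ω W I G : Type*} [Field Ω] [AddCommGroup W] [Module Ω W]
    (c : I → W →ₗ[Ω] Ω) (hc : ∀ x : W, (∀ i, c i x = 0) → x = 0)
    (a : G → Ω ≃+* Ω) (T : G → W → W) (hT : ∀ g x i, c i (T g x) = a g (c i x))
    (V : Submodule Ω W) [FiniteDimensional Ω V] (hV : ∀ g, ∀ x ∈ V, T g x ∈ V) :
    Submodule.span Ω {x | x ∈ V ∧ ∀ g, T g x = x} = V := by
  classical
  apply le_antisymm
  · exact Submodule.span_le.2 (fun x hx => hx.1)
  set r : I → Module.Dual Ω V := fun i => (c i).comp V.subtype with hr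
  have hspan : Submodule.span Ω (Set.range r) = ⊤ := by
    rw [← Subspace.dualCoannihilator_dualAnnihilator_eq (W := Submodule.span Ω (Set.range r))]
    have h0 : (Submodule.span Ω (Set.range r)).dualCoannihilator = ⊥ := by
      rw [eq_bot_iff]
      intro x hx
      rw [Submodule.mem_dualCoannihilator] at hx
      have h1 : (x : W) = 0 := hc x (fun i => hx (r i) (Submodule.subset_span ⟨i, rfl⟩))
      simpa using h1
    rw [h0, Submodule.dualAnnihilator_bot]
  let b := Module.Basis.ofSpan hspan.ge
  have hb : ∀ k, ∃ i, r i = b k := fun k => Module.Basis.ofSpan_subset hspan.ge ⟨k, rfl⟩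
  choose ix hix using hb
  have : Finite ((linearIndepOn_empty Ω id).extend (Set.empty_subset (Set.range r))) :=
    Module.Finite.finite_basis b
  have := Fintype.ofFinite ((linearIndepOn_empty Ω id).extend (Set.empty_subset (Set.range r)))
  let e := b.dualBasis.map (Module.evalEquiv Ω V).symm
  have he : ∀ k l, b k (e l) = if k = l then 1 else 0 := by
    intro k l
    change b k ((Module.evalEquiv Ω V).symm (b.dualBasis l)) = _
    rw [Module.apply_evalEquiv_symm_apply, Module.Basis.dualBasis_apply_self]
  have hfix : ∀ g l, T g (e l : W) = (e l : W) := by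
    intro g l
    have hd : (⟨T g (e l : W), hV g _ (e l).2⟩ : V) - e l = 0 := by
      rw [← Module.forall_dual_apply_eq_zero_iff Ω]
      intro φ
      have h2 : Module.Dual.eval Ω V ((⟨T g (e l : W), hV g _ (e l).2⟩ : V) - e l) = 0 := by
        refine b.ext fun k => ?_
        rw [Module.Dual.eval_apply, map_sub, LinearMap.zero_apply, ← hix k]
        change c (ix k) (T g (e l : W)) - r (ix k) (e l) = 0
        rw [hT]
        change a g (r (ix k) (e l)) - r (ix k) (e l) = 0
        rw [hix k, he]
        split_ifs <;> simp
      have h3 := LinearMap.congr_fun h2 φ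
      rwa [Module.Dual.eval_apply] at h3
    have h4 := congrArg (Subtype.val) (sub_eq_zero.1 hd)
    exact h4
  intro x hx
  have hx' := e.sum_repr ⟨x, hx⟩
  have hx'' : x = ∑ l, e.repr ⟨x, hx⟩ l • (e l : W) := by
    have h5 := congrArg (Subtype.val) hx'
    rw [Submodule.coe_sum] at h5
    exact h5.symm
  rw [hx'']
  refine Submodule.sum_mem _ fun l _ => Submodule.smul_mem _ _ (Submodule.subset_span ?_)
  exact ⟨(e l).2, fun g => hfix g l⟩

end Fermat.Agent.S17.DIV
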