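import Fermat.Agent.S17.DIV.Up
import Fermat.Agent.S17.DIV.NDiv

/-!
# S17-DIV: descent of `NDiv` from `Ω` to `K`

Let `u ≠ 0` in `FF Ω N` with `n ∣ ord_w u - (up D) w` for all `w`. For `σ ∈ Aut(Ω/K)`,
`σ • up D = up D` (`gal_smul_up`), so `(σ • u)/u` is Kummer. `H = {σ | KummerEquiv N n u (σ u)}`; if
`(σ u)/u` and `(τ u)/u` are equivalent then `τ⁻¹ σ ∈ H`; with `KFin`: finitely many cosets.
`GR.C.exists_fixed_rep` gives `w ~ u` fixed by all `σ ∈ H`, so the orbit of `w` under `Aut(Ω/K)` is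
finite; `GR.C.exists_coeffMap_eq_of_finite_orbit` + `GR.C.mem_FF_of_coeffMap_mem`: `w = bc w₀`. Then
`ord_v w₀ = ord_{up v} w ≡ ord_{up v} u ≡ D v` mod `n` (`ord_up`, `Finsupp.mapDomain_apply`,
`up_injective`).
-/

set_option autoImplicit false
set_option linter.unusedSectionVars false

noncomputable section

namespace Fermat.Agent.S17.DIV

open AlgebraicCurve ModularCurve Fermat.Agent.GR Fermat.Agent.GR.C Fermat.Agent.S17.FF

variable {K Ω : Type} [Field K] [Field Ω] [Algebra K Ω] [IsAlgClosed K] [CharZero K]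
  [IsAlgClosed Ω] [CharZero Ω] {N : ℕ} [NeZero N]

theorem Down_smul_mapDomain_up (σ : Ω ≃ₐ[K] Ω) (D : Divisor K (FF K N)) :
    gal K N σ • (Finsupp.mapDomain (up Ω) D : Divisor Ω (FF Ω N)) =
      Finsupp.mapDomain (up Ω) D := by
  rw [SemilinearAut.divisor_smul_def, ← Finsupp.mapDomain_comp]
  congr 1
  funext v
  exact gal_smul_up σ v

theorem Down_smul_ne_zero (g : SemilinearAut Ω (FF Ω N)) {U : FF Ω N} (hU : U ≠ 0) :
    g • U ≠ 0 := by
  intro h0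
  apply hU
  have := congrArg (fun x => g⁻¹ • x) h0
  simpa using this

theorem Down_isKummer {n : ℕ} {D : Divisor K (FF K N)} {U : FF Ω N} (hU : U ≠ 0)
    (h : ∀ w : Place Ω (FF Ω N),
      (n : ℤ) ∣ w.ord U - (Finsupp.mapDomain (up Ω) D : Divisor Ω (FF Ω N)) w)
    (σ : Ω ≃ₐ[K] Ω) :
    IsKummer (N := N) n (((gal K N σ • U) / U : FF Ω N) : LaurentSeries Ω) := by
  have hgU : gal K N σ • U ≠ 0 := Down_smul_ne_zero _ hU
  refine ⟨?_, Subtype.property _, fun w => ?_⟩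
  · intro h0
    exact div_ne_zero hgU hU (Subtype.ext h0)
  · show (n : ℤ) ∣ w.ord ((gal K N σ • U) / U)
    rw [div_eq_mul_inv, w.ord_mul hgU (inv_ne_zero hU), Place.ord_inv]
    have h1 : w.ord (gal K N σ • U) = ((gal K N σ)⁻¹ • w).ord U := by
      have := SemilinearAut.ord_smul (gal K N σ) ((gal K N σ)⁻¹ • w) U
      rwa [smul_inv_smul] at this
    have h2 := h ((gal K N σ)⁻¹ • w)
    have h3 : (Finsupp.mapDomain (up Ω) D : Divisor Ω (FF Ω N)) ((gal K N σ)⁻¹ • w) =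
        (Finsupp.mapDomain (up Ω) D : Divisor Ω (FF Ω N)) w := by
      rw [← SemilinearAut.divisor_smul_apply, Down_smul_mapDomain_up]
    rw [h3] at h2
    have h4 := h w
    rw [h1]
    have h5 := dvd_sub h2 h4
    have he : ((gal K N σ)⁻¹ • w).ord U + -w.ord U =
        ((gal K N σ)⁻¹ • w).ord U - (Finsupp.mapDomain (up Ω) D : Divisor Ω (FF Ω N)) w -
          (w.ord U - (Finsupp.mapDomain (up Ω) D : Divisor Ω (FF Ω N)) w) := by ring
    rw [he]
    exact h5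

omit [IsAlgClosed K] [CharZero K] [IsAlgClosed Ω] [CharZero Ω] [NeZero N] [Field K] [Field Ω]
  [Algebra K Ω] in
/-- abstract coset argument. -/
theorem Down_coset {G G' E : Type*} [Group G] [Group G'] [Field E] [MulSemiringAction G' E]
    (g : G →* G') (U W : E) (n : ℕ)
    (hfix : ∀ σ : G, (∃ Y : E, Y ≠ 0 ∧ g σ • U = U * Y ^ n) → g σ • W = W)
    (σ τ : G) (Y : E) (hY0 : Y ≠ 0) (hY : g σ • U = g τ • U * Y ^ n) :
    g σ • W = g τ • W := by
  have h3 : g (τ⁻¹ * σ) • W = W := by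
    refine hfix _ ⟨(g τ)⁻¹ • Y, ?_, ?_⟩
    · intro h0
      apply hY0
      have := congrArg (fun x => g τ • x) h0
      simpa using this
    · rw [map_mul, mul_smul, hY, smul_mul', map_inv, inv_smul_smul, smul_pow']
  rw [map_mul, mul_smul, map_inv, inv_smul_eq_iff] at h3
  exact h3

theorem ndiv_of_ndiv_mapDomain_up {n : ℕ} (hn : 0 < n) (hK : KFin Ω N n) {D : Divisor K (FF K N)}
    (h : NDiv n (Finsupp.mapDomain (up Ω) D : Divisor Ω (FF Ω N))) : NDiv n D := by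
  classical
  obtain ⟨U, hU, hord⟩ := h
  obtain ⟨S, hS, hSK⟩ := hK
  have hU0 : (U : LaurentSeries Ω) ≠ 0 := fun h0 => hU (Subtype.ext h0)
  -- the canonical representative
  obtain ⟨w, ⟨z, hz, hz0, hwz⟩, -, hfix⟩ :=
    exists_fixed_rep hn (placeUp_finiteDimensional Ω N) U.2 hU0
  have hw : w ∈ FF Ω N := by
    rw [hwz]
    exact mul_mem U.2 (pow_mem hz n)
  obtain ⟨W, hW⟩ : ∃ W : FF Ω N, (W : LaurentSeries Ω) = w := ⟨⟨w, hw⟩, rfl⟩
  obtain ⟨Z, hZ⟩ : ∃ Z : FF Ω N, (Z : LaurentSeries Ω) = z := ⟨⟨z, hz⟩, rfl⟩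
  have hZ0 : Z ≠ 0 := by
    rintro rfl
    exact hz0 hZ.symm
  have hWUZ : W = U * Z ^ n := by
    apply Subtype.ext
    rw [hW, hwz, ← hZ]
    rfl
  have hfix' : ∀ σ : Ω ≃ₐ[K] Ω, (∃ Y : FF Ω N, Y ≠ 0 ∧ gal K N σ • U = U * Y ^ n) →
      gal K N σ • W = W := by
    rintro σ ⟨Y, hY0, hY⟩
    apply Subtype.ext
    rw [coe_gal_smul, hW]
    refine hfix σ.toRingEquiv ⟨Y, Y.2, fun h0 => hY0 (Subtype.ext h0), ?_⟩
    have := congrArg (fun f : FF Ω N => (f : LaurentSeries Ω)) hY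
    exact this
  -- the classes of `(σ u) / u`
  choose φ hφS hφ using fun σ : Ω ≃ₐ[K] Ω => hSK _ (Down_isKummer hU hord σ)
  have hfac : ∀ σ τ : Ω ≃ₐ[K] Ω, φ σ = φ τ → gal K N σ • W = gal K N τ • W := by
    intro σ τ hστ
    obtain ⟨z1, hz1, hz10, h1⟩ := hφ σ
    obtain ⟨z2, hz2, hz20, h2⟩ := hφ τ
    rw [hστ] at h1
    obtain ⟨Y, hYdef⟩ : ∃ Y : FF Ω N, (Y : LaurentSeries Ω) = z1 / z2 :=
      ⟨⟨z1 / z2, div_mem hz1 hz2⟩, rfl⟩
    have hY0 : Y ≠ 0 := by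
      rintro rfl
      exact div_ne_zero hz10 hz20 hYdef.symm
    have hY : gal K N σ • U = gal K N τ • U * Y ^ n := by
      apply Subtype.ext
      have e1 : ((gal K N σ • U : FF Ω N) : LaurentSeries Ω) / (U : LaurentSeries Ω) =
          φ τ * z1 ^ n := h1
      have e2 : ((gal K N τ • U : FF Ω N) : LaurentSeries Ω) / (U : LaurentSeries Ω) =
          φ τ * z2 ^ n := h2
      show ((gal K N σ • U : FF Ω N) : LaurentSeries Ω) =
        ((gal K N τ • U : FF Ω N) : LaurentSeries Ω) * (Y : LaurentSeries Ω) ^ n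
      rw [div_eq_iff hU0] at e1 e2
      rw [e1, e2, hYdef, div_pow]
      field_simp
    exact Down_coset (gal K N) U W n hfix' σ τ Y hY0 hY
  -- finiteness of the orbit
  have hfin : (Set.range fun σ : Ω ≃ₐ[K] Ω => coeffMap (σ : Ω →+* Ω) w).Finite := by
    have hft : Function.FactorsThrough (fun σ : Ω ≃ₐ[K] Ω => coeffMap (σ : Ω →+* Ω) w) φ := by
      intro σ τ hστ
      have := congrArg (fun f : FF Ω N => (f : LaurentSeries Ω)) (hfac σ τ hστ)
      simp only [coe_gal_smul, hW] at this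
      exact this
    refine (hS.image (Function.extend φ (fun σ : Ω ≃ₐ[K] Ω => coeffMap (σ : Ω →+* Ω) w)
      (fun _ => 0))).subset ?_
    rintro _ ⟨σ, rfl⟩
    exact ⟨φ σ, hφS σ, hft.extend_apply _ σ⟩
  obtain ⟨w₀, hw₀⟩ := exists_coeffMap_eq_of_finite_orbit (K := K) w hfin
  have hw₀mem : w₀ ∈ FF K N := mem_FF_of_coeffMap_mem (Ω := Ω) (by rw [hw₀]; exact hw)
  have hbc : bc N (algebraMap K Ω) (⟨w₀, hw₀mem⟩ : FF K N) = W := by
    apply Subtype.ext
    rw [coe_bc, hW]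
    exact hw₀
  have hW0 : W ≠ 0 := by
    rw [hWUZ]
    exact mul_ne_zero hU (pow_ne_zero n hZ0)
  refine ⟨⟨w₀, hw₀mem⟩, ?_, fun v => ?_⟩
  · intro h0
    apply hW0
    rw [← hbc, h0, map_zero]
  · rw [← ord_up (Ω := Ω) v, hbc, hWUZ, Place.ord_mul _ hU (pow_ne_zero n hZ0),
      ← zpow_natCast, Place.ord_zpow]
    have h1 := hord (up Ω v)
    rw [Finsupp.mapDomain_apply up_injective] at h1
    have he : (up Ω v).ord U + (n : ℤ) * (up Ω v).ord Z - D v =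
        ((up Ω v).ord U - D v) + (n : ℤ) * (up Ω v).ord Z := by ring
    rw [he]
    exact dvd_add h1 (Dvd.intro _ rfl)

end Fermat.Agent.S17.DIV
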