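import Fermat.Agent.Lib.AutExt

/-!
# S17-DIV: two embeddings of a function field which agree on a transcendental element are conjugate

`M = K(t) ⊆ F` algebraic. `φ, φ' : F → Ω` agree on `M`. Make `Ω` an `M`-algebra through `φ`; let
`A` be the algebraic closure of `M` in `Ω` (normal over `M`, contains `φ F` and `φ' F`); the
isomorphism `φ F ≃ φ' F` over `M` lifts to `A` (`AlgEquiv.liftNormal`), and then to `Ω`
(`Fermat.Agent.Lib.AutExt.exists_algEquiv_extending`).
-/

set_option autoImplicit false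

namespace Fermat.Agent.S17.DIV

/-- two embeddings into a normal extension are conjugate. -/
theorem Embed_normal {M F A : Type*} [Field M] [Field F] [Field A] [Algebra M F] [Algebra M A]
    [Normal M A] (φ φ' : F →ₐ[M] A) : ∃ τ : A ≃ₐ[M] A, ∀ f : F, τ (φ f) = φ' f := by
  let χ : φ.fieldRange ≃ₐ[M] φ'.fieldRange :=
    (AlgEquiv.ofInjectiveField φ).symm.trans (AlgEquiv.ofInjectiveField φ')
  refine ⟨χ.liftNormal A, fun f => ?_⟩
  have h1 := χ.liftNormal_commutes A (AlgEquiv.ofInjectiveField φ f)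
  have h2 : χ (AlgEquiv.ofInjectiveField φ f) = AlgEquiv.ofInjectiveField φ' f := by
    change AlgEquiv.ofInjectiveField φ' ((AlgEquiv.ofInjectiveField φ).symm
      (AlgEquiv.ofInjectiveField φ f)) = _
    rw [AlgEquiv.symm_apply_apply]
  rw [h2] at h1
  exact h1

/-- the case where the common subfield is the base field. -/
theorem Embed_base {M F Ω : Type*} [Field M] [Field F] [Field Ω] [Algebra M F] [Algebra M Ω]
    [IsAlgClosed Ω] [Algebra.IsAlgebraic M F] (φ φ' : F →ₐ[M] Ω) :
    ∃ τ : Ω ≃ₐ[M] Ω, ∀ f : F, τ (φ f) = φ' f := by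
  let A : IntermediateField M Ω := algebraicClosure M Ω
  have hA : ∀ (ψ : F →ₐ[M] Ω) (f : F), ψ f ∈ A := fun ψ f =>
    mem_algebraicClosure_iff.mpr (IsAlgebraic.algHom ψ (Algebra.IsAlgebraic.isAlgebraic f))
  have : IsAlgClosure M A := algebraicClosure.isAlgClosure M Ω
  have : Normal M A := IsAlgClosure.normal M A
  let ψ : F →ₐ[M] A := φ.codRestrict A.toSubalgebra (hA φ)
  let ψ' : F →ₐ[M] A := φ'.codRestrict A.toSubalgebra (hA φ')
  obtain ⟨τ, hτ⟩ := Embed_normal ψ ψ'
  obtain ⟨σ, hσ⟩ := Fermat.Agent.Lib.AutExt.exists_algEquiv_extending A τ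
  refine ⟨σ, fun f => ?_⟩
  have h1 := hσ (ψ f)
  rw [hτ f] at h1
  exact h1

theorem exists_algEquiv_comp_eq {K F Ω : Type*} [Field K] [Field F] [Field Ω] [Algebra K F]
    [Algebra K Ω] [IsAlgClosed Ω] (t : F)
    (hF : Algebra.IsAlgebraic (IntermediateField.adjoin K {t}) F)
    (φ φ' : F →ₐ[K] Ω) (h : φ t = φ' t) : ∃ τ : Ω ≃ₐ[K] Ω, ∀ f : F, τ (φ f) = φ' f := by
  let M : IntermediateField K F := IntermediateField.adjoin K {t}
  have hM : φ.comp M.val = φ'.comp M.val := by
    apply IntermediateField.adjoin_algHom_ext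
    intro x hx
    rw [Set.mem_singleton_iff] at hx
    subst hx
    exact h
  let _ : Algebra M Ω := (φ.comp M.val).toRingHom.toAlgebra
  have : IsScalarTower K M Ω := IsScalarTower.of_algebraMap_eq fun x => by
    change algebraMap K Ω x = φ (algebraMap K F x)
    rw [φ.commutes]
  let ψ : F →ₐ[M] Ω := { φ.toRingHom with commutes' := fun _ => rfl }
  let ψ' : F →ₐ[M] Ω :=
    { φ'.toRingHom with commutes' := fun m => (DFunLike.congr_fun hM m).symm }
  obtain ⟨τ, hτ⟩ := Embed_base ψ ψ'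
  exact ⟨τ.restrictScalars K, hτ⟩

end Fermat.Agent.S17.DIV
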