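import Fermat.Agent.S17.DIV.Up
import Fermat.Agent.S17.DIV.Embed

/-!
# S17-DIV: the fibre of a function `t ∈ FF K N` through a generic point is one `Aut(Ω/K)`-orbit (FT)

`s = val w (bc t)` is transcendental over `K` (`evalHom w hw` is an injective `K`-algebra map), in
particular `s ∉ K`; so `w'` is generic too (`val_bc_mem_range`). `evalHom w` and `evalHom w'` agree
at `t`, and `FF K N` is algebraic over `K(t)` (`FF.finiteDimensional_adjoin`); by
`exists_algEquiv_comp_eq` there is `τ` with `τ (val w (bc f)) = val w' (bc f)` for all `f`. Then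
`gal K N τ • w` and `w'` have the same values on `FF K N` (`val_gal_smul_bc`): `place_ext`.
-/

set_option autoImplicit false
set_option linter.unusedSectionVars false

noncomputable section

namespace Fermat.Agent.S17.DIV

open AlgebraicCurve ModularCurve Fermat.Agent.GR Fermat.Agent.GR.C Fermat.Agent.S17.FF

variable {K Ω : Type} [Field K] [Field Ω] [Algebra K Ω] [IsAlgClosed K] [CharZero K]
  [IsAlgClosed Ω] [CharZero Ω] {N : ℕ} [NeZero N]

theorem exists_gal_smul_eq {w w' : Place Ω (FF Ω N)} (hw : IsGeneric K w) {t : FF K N}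
    (ht : Transcendental K t) (h0 : 0 ≤ w'.ord (bc N (algebraMap K Ω) t))
    (h : val w' (bc N (algebraMap K Ω) t) = val w (bc N (algebraMap K Ω) t)) :
    ∃ τ : Ω ≃ₐ[K] Ω, gal K N τ • w = w' := by
  -- the common value is not in `K`
  have hs : val w (bc N (algebraMap K Ω) t) ∉ Set.range (algebraMap K Ω) := by
    rintro ⟨a, ha⟩
    have h1 : evalHom w hw t = evalHom w hw (algebraMap K (FF K N) a) := by
      rw [AlgHom.commutes, evalHom_apply, ha]
    have h2 : t = algebraMap K (FF K N) a := (evalHom w hw).toRingHom.injective h1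
    exact ht (h2 ▸ isAlgebraic_algebraMap a)
  -- so `w'` is generic
  have hw' : IsGeneric K w' := by
    by_contra hcon
    exact hs (h ▸ val_bc_mem_range hcon t)
  have hfd : FiniteDimensional (IntermediateField.adjoin K {t}) (FF K N) :=
    finiteDimensional_adjoin ht
  have hF : Algebra.IsAlgebraic (IntermediateField.adjoin K {t}) (FF K N) :=
    Algebra.IsAlgebraic.of_finite _ _
  obtain ⟨τ, hτ⟩ := exists_algEquiv_comp_eq t hF (evalHom w hw) (evalHom w' hw') h.symm
  refine ⟨τ, place_ext (K := K) fun f _ _ => ?_⟩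
  rw [val_gal_smul_bc]
  exact hτ f

end Fermat.Agent.S17.DIV
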