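import Fermat.Agent.S17.DIV.Up
import Fermat.Agent.S17.DIV.Clo

/-!
# S17-DIV: `k ≤ g` independent generic points impose independent conditions: `ℓ(P₁+…+P_k) = 1`

Induction on `k`. `k = 0`: `FF.ell_zero`. Step: `D = P₀ + … + P_{k-1}`, `ℓ(D) = 1`, `k + 1 ≤ g`, so
`deg D + 1 - g < ℓ(D)` and `B = {P | ℓ(D + P) = ℓ(D) + 1}` is finite (`FF.finite_ell_add_single`).
Let `L = clo K {y_i | i < k}`, `y_i = val (P i) j`. Each `P i`, `i < k`, is not generic over `L`
(`not_isGeneric_of_val_jF_mem`), hence fixed by `Aut(Ω/L)` (`gal_smul_eq_of_not_isGeneric` for the pair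
`(L, Ω)`), so `D` is fixed and `B` is stable (`ell_smul`). If `P_k ∈ B` the orbit of `P_k`, hence of
`y_k` (`val_gal_smul_jF`), under `Aut(Ω/L)` is finite, so `y_k ∈ L`
(`Lib.AutExt.mem_range_algebraMap_of_finite_orbit`), contradicting
`not_mem_clo_of_algebraicIndependent`. So `ℓ(D + P_k) ≠ ℓ(D) + 1`; with `FF.ell_mono`,
`FF.ell_add_single_le` we get `ℓ(D + P_k) = 1`.
-/

set_option autoImplicit false
set_option linter.unusedSectionVars false

noncomputable section

namespace Fermat.Agent.S17.DIV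

open AlgebraicCurve ModularCurve Fermat.Agent.GR Fermat.Agent.GR.C Fermat.Agent.S17.FF

variable {K Ω : Type} [Field K] [Field Ω] [Algebra K Ω] [IsAlgClosed K] [CharZero K]
  [IsAlgClosed Ω] [CharZero Ω] {N : ℕ} [NeZero N]

/-- translating the added point of a fixed divisor. -/
theorem Generic_smul_add_single (g : SemilinearAut Ω (FF Ω N)) (D : Divisor Ω (FF Ω N))
    (hD : g • D = D) (Q : Place Ω (FF Ω N)) :
    g • (D + Finsupp.single Q (1 : ℤ)) = D + Finsupp.single (g • Q) (1 : ℤ) := by
  classical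
  ext w
  rw [SemilinearAut.divisor_smul_apply, Finsupp.add_apply, Finsupp.add_apply,
    ← SemilinearAut.divisor_smul_apply, hD, Finsupp.single_apply, Finsupp.single_apply]
  congr 1
  by_cases h : Q = g⁻¹ • w
  · rw [if_pos h, if_pos (by rw [h, smul_inv_smul])]
  · rw [if_neg h, if_neg (fun h' => h (by rw [← h', inv_smul_smul]))]

/-- a sum of points with `j`-values in `K` is fixed by `Aut(Ω/K)`. -/
theorem Generic_smul_sum_eq {k : ℕ} (P : Fin k → Place Ω (FF Ω N))
    (hP : ∀ i, 0 ≤ (P i).ord (jF Ω N))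
    (hc : ∀ i, val (P i) (jF Ω N) ∈ Set.range (algebraMap K Ω)) (σ : Ω ≃ₐ[K] Ω) :
    gal K N σ • (∑ i, Finsupp.single (P i) (1 : ℤ) : Divisor Ω (FF Ω N))
      = ∑ i, Finsupp.single (P i) (1 : ℤ) := by
  classical
  apply smul_eq_of_support
  intro v hv
  have h1 := Finsupp.support_finsetSum hv
  rw [Finset.mem_biUnion] at h1
  obtain ⟨i, _, hi⟩ := h1
  have h2 := Finsupp.support_single_subset hi
  rw [Finset.mem_singleton] at h2
  rw [h2]
  exact gal_smul_eq_of_not_isGeneric (not_isGeneric_of_val_jF_mem (hP i) (hc i)) σ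

/-- a point whose `j`-value is not in `K` is not one of the finitely many exceptional points of a
divisor fixed by `Aut(Ω/K)`. -/
theorem Generic_ell_add_single_ne (D : Divisor Ω (FF Ω N))
    (hDfix : ∀ σ : Ω ≃ₐ[K] Ω, gal K N σ • D = D)
    (hfin : {Q : Place Ω (FF Ω N) | ell (D + Finsupp.single Q 1) = ell D + 1}.Finite)
    (Q : Place Ω (FF Ω N)) (hQ : val Q (jF Ω N) ∉ Set.range (algebraMap K Ω)) :
    ell (D + Finsupp.single Q 1) ≠ ell D + 1 := by
  intro hB
  apply hQ
  apply Lib.AutExt.mem_range_algebraMap_of_finite_orbit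
  apply (hfin.image fun Q => val Q (jF Ω N)).subset
  rintro _ ⟨σ, rfl⟩
  refine ⟨gal K N σ • Q, ?_, val_gal_smul_jF σ _⟩
  show ell (D + Finsupp.single (gal K N σ • Q) 1) = ell D + 1
  rw [← Generic_smul_add_single _ D (hDfix σ), DIV.ell_smul]
  exact hB

theorem ell_sum_single_eq_one (k : ℕ) (hk : k ≤ genus Ω (FF Ω N)) (P : Fin k → Place Ω (FF Ω N))
    (hP : ∀ i, 0 ≤ (P i).ord (jF Ω N))
    (hy : AlgebraicIndependent K fun i => val (P i) (jF Ω N)) :
    ell (∑ i, Finsupp.single (P i) (1 : ℤ) : Divisor Ω (FF Ω N)) = 1 := by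
  classical
  induction k with
  | zero =>
    rw [Finset.univ_eq_empty, Finset.sum_empty]
    exact ell_zero
  | succ k ih =>
    rw [Fin.sum_univ_castSucc]
    set D : Divisor Ω (FF Ω N) := ∑ i : Fin k, Finsupp.single (P i.castSucc) (1 : ℤ) with hD
    have hellD : ell D = 1 :=
      ih (by omega) (fun i => P i.castSucc) (fun i => hP i.castSucc)
        (hy.comp Fin.castSucc (Fin.castSucc_injective k))
    have hdeg : Divisor.degree D = k := by
      rw [hD, map_sum, Finset.sum_congr rfl (fun i _ => degree_single' (P i.castSucc) 1)]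
      simp
    have hfin : {Q : Place Ω (FF Ω N) | ell (D + Finsupp.single Q 1) = ell D + 1}.Finite := by
      apply finite_ell_add_single
      rw [hdeg, hellD]
      have : ((k + 1 : ℕ) : ℤ) ≤ (genus Ω (FF Ω N) : ℤ) := by exact_mod_cast hk
      push_cast at this ⊢
      omega
    have hlast : Fin.last k ∉ Set.range (Fin.castSucc : Fin k → Fin (k + 1)) := by
      rintro ⟨i, hi⟩
      exact (Fin.castSucc_lt_last i).ne hi
    have hnot := not_mem_clo_of_algebraicIndependent hy hlast
    have hne : ell (D + Finsupp.single (P (Fin.last k)) 1) ≠ ell D + 1 := by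
      refine Generic_ell_add_single_ne
        (K := clo K ((fun i => val (P i) (jF Ω N)) '' Set.range (Fin.castSucc : Fin k → Fin (k + 1))))
        D ?_ hfin _ ?_
      · intro σ
        refine Generic_smul_sum_eq (fun i : Fin k => P i.castSucc) (fun i => hP i.castSucc) ?_ σ
        intro i
        rw [range_algebraMap_clo]
        exact subset_clo _ ⟨i.castSucc, ⟨i, rfl⟩, rfl⟩
      · rw [range_algebraMap_clo]
        exact hnot
    have hle := ell_add_single_le D (P (Fin.last k))
    have hge : ell D ≤ ell (D + Finsupp.single (P (Fin.last k)) 1) := by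
      apply ell_mono
      intro v
      rw [Finsupp.add_apply]
      have : (0 : ℤ) ≤ (Finsupp.single (P (Fin.last k)) (1 : ℤ)) v := by
        have h5 : (0 : Divisor Ω (FF Ω N)) ≤ Finsupp.single (P (Fin.last k)) (1 : ℤ) :=
          Finsupp.single_nonneg.2 zero_le_one
        simpa using h5 v
      omega
    omega

end Fermat.Agent.S17.DIV
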