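import Fermat.Agent.S17.DIV.Clo

/-!
# S17-DIV: an effective divisor of degree `g` over whose coordinates `g` independent elements are
algebraic consists of `g` distinct independent points

Let `X` be the finset of the `z a`, `a ∈ supp E`, `r a`. By (TD)
`g ≤ #X ≤ #{a ∈ supp E | r a} ≤ #supp E ≤ deg E = g`, so all multiplicities are one, all points
satisfy `r`, and `z` is injective on the support. Take any `a` in the support. If `z a` were in
`clo K (X \ {z a})` then all `y i` would be in `clo K (X \ {z a})`, contradicting (TD).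
-/

set_option autoImplicit false

namespace Fermat.Agent.S17.DIV

theorem exists_isolated {K Ω : Type*} [Field K] [Field Ω] [Algebra K Ω] {α : Type*}
    (E : α →₀ ℤ) (hE : 0 ≤ E) (g : ℕ) (hg : 0 < g) (hdeg : (E.sum fun _ m => m) = g)
    (r : α → Prop) (z : α → Ω) (y : Fin g → Ω) (hy : AlgebraicIndependent K y)
    (h : ∀ i, y i ∈ clo K {x | ∃ a ∈ E.support, r a ∧ z a = x}) :
    ∃ a ∈ E.support, E a = 1 ∧ r a ∧
      z a ∉ clo K {x | ∃ b ∈ E.support, b ≠ a ∧ r b ∧ z b = x} := by
  classical
  set s : Finset α := E.support.filter r with hs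
  have hX : {x | ∃ a ∈ E.support, r a ∧ z a = x} = ((s.image z : Finset Ω) : Set Ω) := by
    ext x
    simp only [Set.mem_ofPred_eq, Finset.coe_image, Set.mem_image, Finset.mem_coe, hs,
      Finset.mem_filter, and_assoc]
  rw [hX] at h
  have h1 : g ≤ (s.image z).card := card_le_of_algebraicIndependent hy _ h
  have h2 : (s.image z).card ≤ s.card := Finset.card_image_le
  have h3 : s.card ≤ E.support.card := Finset.card_filter_le _ _
  have hpos : ∀ a ∈ E.support, 1 ≤ E a := by
    intro a ha
    have h0 : 0 ≤ E a := hE a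
    have hne : E a ≠ 0 := Finsupp.mem_support_iff.1 ha
    omega
  have hsum : ∑ a ∈ E.support, E a = g := hdeg
  have h4 : (E.support.card : ℤ) ≤ g := by
    rw [← hsum]
    calc (E.support.card : ℤ) = ∑ _a ∈ E.support, (1 : ℤ) := by simp
      _ ≤ ∑ a ∈ E.support, E a := Finset.sum_le_sum hpos
  have h4' : E.support.card ≤ g := by exact_mod_cast h4
  have hcs : s.card = g := by omega
  have hcE : E.support.card = g := by omega
  have hsE : s = E.support :=
    Finset.eq_of_subset_of_card_le (Finset.filter_subset _ _) (by omega)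
  have hone : ∀ a ∈ E.support, E a = 1 := by
    have hsum' : ∑ a ∈ E.support, (E a - 1) = 0 := by
      rw [Finset.sum_sub_distrib, hsum]
      simp [hcE]
    intro a ha
    have := (Finset.sum_eq_zero_iff_of_nonneg (fun b hb => by
      have := hpos b hb
      omega)).1 hsum' a ha
    omega
  have hne : E.support.Nonempty := by
    rw [← Finset.card_pos]
    omega
  obtain ⟨a, ha⟩ := hne
  have has : a ∈ s := hsE ▸ ha
  refine ⟨a, ha, hone a ha, (Finset.mem_filter.1 has).2, ?_⟩
  intro hza
  have hX' : {x | ∃ b ∈ E.support, b ≠ a ∧ r b ∧ z b = x} =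
      (((s.erase a).image z : Finset Ω) : Set Ω) := by
    ext x
    simp only [Set.mem_ofPred_eq, Finset.coe_image, Set.mem_image, Finset.mem_coe, hs,
      Finset.mem_erase, Finset.mem_filter]
    constructor
    · rintro ⟨b, hb, hba, hrb, rfl⟩
      exact ⟨b, ⟨hba, hb, hrb⟩, rfl⟩
    · rintro ⟨b, ⟨hba, hb, hrb⟩, rfl⟩
      exact ⟨b, hb, hba, hrb, rfl⟩
  rw [hX'] at hza
  have hsub : ((s.image z : Finset Ω) : Set Ω) ⊆
      (clo K (((s.erase a).image z : Finset Ω) : Set Ω) : Set Ω) := by
    intro x hx
    obtain ⟨b, hb, rfl⟩ := Finset.mem_image.1 (Finset.mem_coe.1 hx)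
    by_cases hba : b = a
    · rw [hba]
      exact hza
    · exact subset_clo _ (Finset.mem_coe.2
        (Finset.mem_image_of_mem z (Finset.mem_erase.2 ⟨hba, hb⟩)))
  have h5 : g ≤ ((s.erase a).image z).card :=
    card_le_of_algebraicIndependent hy _ fun i => clo_le_of_subset hsub (h i)
  have h6 : ((s.erase a).image z).card ≤ (s.erase a).card := Finset.card_image_le
  have h7 : (s.erase a).card = s.card - 1 := Finset.card_erase_of_mem has
  omega

end Fermat.Agent.S17.DIV
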