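import Fermat.Agent.S17.DIV.Const
import Fermat.Agent.S17.DIV.Down

/-!
# S17-DIV: `Pic⁰` of `FF K N` is `n`-divisible

`ndiv_of_degree_eq_zero`: `Z = mapDomain up D` has degree `0` and support in the range of `up`
(`Finsupp.mapDomain_support`); `ndiv_of_support Z (up ∞)` + `ndiv_up_sub` give `NDiv n Z`; descend by
`ndiv_of_ndiv_mapDomain_up`.

`exists_nsmul_eq_pic0`: `x = Pic0.mk D`, `D = divf u + n • E` (`ndiv_iff`), `n * deg E = 0` so
`deg E = 0`; `y = Pic0.mk E`; `D - n • E` is principal (`QuotientAddGroup.eq`).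
-/

set_option autoImplicit false
set_option linter.unusedSectionVars false

noncomputable section

namespace Fermat.Agent.S17.DIV

open AlgebraicCurve ModularCurve Fermat.Agent.GR Fermat.Agent.GR.C Fermat.Agent.S17.FF

variable {K Ω : Type} [Field K] [Field Ω] [Algebra K Ω] [IsAlgClosed K] [CharZero K]
  [IsAlgClosed Ω] [CharZero Ω] {N : ℕ} [NeZero N]

variable (Ω)

theorem ndiv_of_degree_eq_zero {n : ℕ} (hn : 0 < n) (hK : KFin Ω N n)
    (hInd : ∀ g : ℕ, ∃ y : Fin g → Ω, AlgebraicIndependent K y) {D : Divisor K (FF K N)}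
    (hD : Divisor.degree D = 0) : NDiv n D := by
  classical
  apply ndiv_of_ndiv_mapDomain_up (Ω := Ω) hn hK
  have h1 := ndiv_of_support (n := n) (Finsupp.mapDomain (up Ω) D : Divisor Ω (FF Ω N))
    (up Ω (qPlace K N)) (by
      intro v hv
      have h2 := Finsupp.mapDomain_support hv
      rw [Finset.mem_image] at h2
      obtain ⟨R, -, rfl⟩ := h2
      exact ndiv_up_sub hn hK hInd R)
  rwa [degree_mapDomain_up, hD, zero_smul, sub_zero] at h1

theorem exists_nsmul_eq_pic0 {n : ℕ} (hn : 0 < n) (hK : KFin Ω N n)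
    (hInd : ∀ g : ℕ, ∃ y : Fin g → Ω, AlgebraicIndependent K y) (x : Pic0 K (FF K N)) :
    ∃ y : Pic0 K (FF K N), n • y = x := by
  obtain ⟨D, rfl⟩ := Pic0.mk_surjective x
  have hD : Divisor.degree (D : Divisor K (FF K N)) = 0 := D.2
  obtain ⟨u, E, hu, hDE⟩ := ndiv_iff.1 (ndiv_of_degree_eq_zero Ω hn hK hInd hD)
  have hE : Divisor.degree E = 0 := by
    have h1 := congrArg Divisor.degree hDE
    rw [hD, map_add, degree_divf, zero_add, map_nsmul, nsmul_eq_mul] at h1
    have hn' : (n : ℤ) ≠ 0 := by exact_mod_cast hn.ne'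
    rcases mul_eq_zero.1 h1.symm with h2 | h2
    · exact absurd h2 hn'
    · exact h2
  refine ⟨Pic0.mk ⟨E, hE⟩, ?_⟩
  change n • (QuotientAddGroup.mk (⟨E, hE⟩ : Divisor.degZero (K := K) (F := FF K N)) : Pic0 K (FF K N))
    = QuotientAddGroup.mk D
  rw [← QuotientAddGroup.mk_nsmul, QuotientAddGroup.eq, AddSubgroup.mem_addSubgroupOf]
  refine ⟨u, hu, fun v => ?_⟩
  have h3 := DFunLike.congr_fun hDE v
  simp only [AddSubgroup.coe_add, AddSubgroup.coe_neg, AddSubgroup.coe_nsmul, Finsupp.add_apply,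
    Finsupp.neg_apply, Finsupp.smul_apply, divf_apply] at h3 ⊢
  omega

end Fermat.Agent.S17.DIV
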