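import Fermat.Agent.S17.DIV.Gal
import Fermat.Agent.S17.DIV.NDiv

/-!
# S17-DIV: finiteness of the Kummer group bounds the field of definition of an `n`-division point

For `σ ∈ Aut(Ω/K)` put `u_σ = (σ • h) / h`. By `divf_smul`, `hfix`, `gal_smul_qPlace`:
`divf u_σ = - n • (σ • E - E)`, so `u_σ` is Kummer. By `KFin` the classes of the `u_σ` take finitely
many values. If `u_σ` and `u_τ` are equivalent, `u_τ = u_σ z^n`, then `σ • E - τ • E = divf z`
(divisors are torsion free), so `z ∈ L(τ • E)`; as `ℓ(τ • E) = ℓ(E) = 1` (`ell_smul`) and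
`1 ∈ L(τ • E)`, `z` is constant (`FF.exists_smul_eq_of_ell_eq_one`) and `σ • E = τ • E`. Hence
`{σ • E}` is finite, `{σ • P}` is finite (contained in the union of the supports), and
`{σ (val P j)}` is finite (`val_gal_smul_jF`); conclude by
`Lib.AutExt.mem_range_algebraMap_of_finite_orbit`.
-/

set_option autoImplicit false
set_option linter.unusedSectionVars false

noncomputable section

namespace Fermat.Agent.S17.DIV

open AlgebraicCurve ModularCurve Fermat.Agent.GR Fermat.Agent.GR.C Fermat.Agent.S17.FF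

variable {K Ω : Type} [Field K] [Field Ω] [Algebra K Ω] [IsAlgClosed K] [CharZero K]
  [IsAlgClosed Ω] [CharZero Ω] {N : ℕ} [NeZero N]

/-- two effective linearly equivalent divisors, one of which has `ℓ = 1`, are equal. -/
theorem Orbit_eq_of_divf {A B : Divisor Ω (FF Ω N)} (hA : 0 ≤ A) (hB : 0 ≤ B) (hl : ell B = 1)
    {z : FF Ω N} (hz : A - B = divf (K := Ω) z) : A = B := by
  have h1 : (1 : FF Ω N) ∈ LSpace B := by
    refine Or.inr fun v => ?_
    rw [Place.ord_one]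
    have := hB v
    simp only [Finsupp.coe_zero, Pi.zero_apply] at this
    omega
  have h2 : z ∈ LSpace B := by
    refine Or.inr fun v => ?_
    have h3 := DFunLike.congr_fun hz v
    rw [Finsupp.sub_apply, divf_apply] at h3
    have := hA v
    simp only [Finsupp.coe_zero, Pi.zero_apply] at this
    omega
  obtain ⟨c, hc⟩ := exists_smul_eq_of_ell_eq_one hl h1 h2 one_ne_zero
  rw [mul_one] at hc
  rw [hc, divf_algebraMap] at hz
  exact sub_eq_zero.1 hz

theorem val_mem_of_kfin {n : ℕ} (hn : 0 < n) (hK : KFin Ω N n) {E E' : Divisor Ω (FF Ω N)}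
    (hE : 0 ≤ E) (hell : ell E = 1) {h : FF Ω N} (h0 : h ≠ 0) (c : ℤ)
    (hdiv : divf (K := Ω) h = E' - n • E + c • Finsupp.single (qPlace Ω N) 1)
    (hfix : ∀ σ : Ω ≃ₐ[K] Ω, gal K N σ • E' = E')
    {P : Place Ω (FF Ω N)} (hP : P ∈ E.support) :
    val P (jF Ω N) ∈ Set.range (algebraMap K Ω) := by
  classical
  -- the cocycle
  set u : (Ω ≃ₐ[K] Ω) → FF Ω N := fun σ => (gal K N σ • h) * h⁻¹ with hu
  have hσh : ∀ σ : Ω ≃ₐ[K] Ω, gal K N σ • h ≠ 0 := fun σ => by
    simpa using h0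
  have hu0 : ∀ σ, u σ ≠ 0 := fun σ => mul_ne_zero (hσh σ) (inv_ne_zero h0)
  have hdu : ∀ σ, divf (K := Ω) (u σ) = n • E - n • (gal K N σ • E) := by
    intro σ
    rw [hu]
    simp only
    rw [divf_mul (hσh σ) (inv_ne_zero h0), divf_inv, divf_smul, hdiv, smul_add, smul_sub, hfix σ,
      smul_comm (gal K N σ) n E, smul_comm (gal K N σ) c, SemilinearAut.smul_single,
      gal_smul_qPlace]
    abel
  have hkum : ∀ σ, IsKummer (N := N) n ((u σ : FF Ω N) : LaurentSeries Ω) := by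
    intro σ
    refine ⟨fun h1 => hu0 σ (Subtype.ext h1), (u σ).2, fun v => ?_⟩
    have h1 := DFunLike.congr_fun (hdu σ) v
    rw [divf_apply, Finsupp.sub_apply, Finsupp.smul_apply, Finsupp.smul_apply, nsmul_eq_mul,
      nsmul_eq_mul] at h1
    change (n : ℤ) ∣ v.ord (u σ)
    rw [h1, ← mul_sub]
    exact dvd_mul_right _ _
  obtain ⟨S, hSfin, hS⟩ := hK
  choose s hsS hs using fun σ => hS _ (hkum σ)
  have hEσ : ∀ σ : Ω ≃ₐ[K] Ω, 0 ≤ gal K N σ • E := fun σ => smul_nonneg _ hE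
  have hkey : ∀ σ τ, s σ = s τ → gal K N σ • E = gal K N τ • E := by
    intro σ τ hst
    obtain ⟨z₁, hz₁, hz₁0, h1⟩ := hs σ
    obtain ⟨z₂, hz₂, hz₂0, h2⟩ := hs τ
    set Z₁ : FF Ω N := ⟨z₁, hz₁⟩
    set Z₂ : FF Ω N := ⟨z₂, hz₂⟩
    have hZ₁ : Z₁ ≠ 0 := fun h3 => hz₁0 (congrArg Subtype.val h3)
    have hZ₂ : Z₂ ≠ 0 := fun h3 => hz₂0 (congrArg Subtype.val h3)
    have hrel : u τ * Z₁ ^ n = u σ * Z₂ ^ n := by
      apply Subtype.ext
      change ((u τ : FF Ω N) : LaurentSeries Ω) * z₁ ^ n = ((u σ : FF Ω N) : LaurentSeries Ω) * z₂ ^ n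
      rw [h1, h2, hst]
      ring
    have hpow : ∀ Z : FF Ω N, Z ≠ 0 → divf (K := Ω) (Z ^ n) = n • divf (K := Ω) Z := by
      intro Z hZ
      ext v
      rw [divf_apply, Finsupp.smul_apply, divf_apply, ← zpow_natCast, Place.ord_zpow, nsmul_eq_mul]
    have h3 := congrArg (divf (K := Ω)) hrel
    rw [divf_mul (hu0 τ) (pow_ne_zero _ hZ₁), divf_mul (hu0 σ) (pow_ne_zero _ hZ₂), hpow _ hZ₁,
      hpow _ hZ₂, hdu, hdu] at h3
    have h4 : gal K N σ • E - gal K N τ • E = divf (K := Ω) (Z₂ * Z₁⁻¹) := by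
      rw [divf_mul hZ₂ (inv_ne_zero hZ₁), divf_inv]
      ext v
      have h5 := DFunLike.congr_fun h3 v
      simp only [Finsupp.add_apply, Finsupp.sub_apply, Finsupp.smul_apply, nsmul_eq_mul,
        Finsupp.neg_apply] at h5 ⊢
      have hn' : (n : ℤ) ≠ 0 := by exact_mod_cast hn.ne'
      apply mul_left_cancel₀ hn'
      linarith
    exact Orbit_eq_of_divf (hEσ σ) (hEσ τ) (by rw [ell_smul, hell]) h4
  -- finiteness of the orbit of `E`
  have hfinE : (Set.range fun σ : Ω ≃ₐ[K] Ω => gal K N σ • E).Finite := by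
    set G : LaurentSeries Ω → Divisor Ω (FF Ω N) := fun x =>
      if hx : ∃ σ, s σ = x then gal K N hx.choose • E else 0 with hG
    refine (hSfin.image G).subset ?_
    rintro _ ⟨σ, rfl⟩
    refine ⟨s σ, hsS σ, ?_⟩
    have hx : ∃ τ, s τ = s σ := ⟨σ, rfl⟩
    simp only [hG, dif_pos hx]
    exact hkey _ _ hx.choose_spec
  have hfinP : (Set.range fun σ : Ω ≃ₐ[K] Ω => gal K N σ • P).Finite := by
    refine (hfinE.biUnion (fun D _ => D.support.finite_toSet)).subset ?_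
    rintro _ ⟨σ, rfl⟩
    simp only [Set.mem_iUnion]
    exact ⟨_, ⟨σ, rfl⟩, (mem_support_smul_iff (gal K N σ) E P).2 hP⟩
  apply Fermat.Agent.Lib.AutExt.mem_range_algebraMap_of_finite_orbit
  refine (hfinP.image fun w => val w (jF Ω N)).subset ?_
  rintro _ ⟨σ, rfl⟩
  exact ⟨_, ⟨σ, rfl⟩, val_gal_smul_jF σ P⟩

end Fermat.Agent.S17.DIV
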