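import Fermat.Agent.S17.DIV.Generic
import Fermat.Agent.S17.DIV.Orbit
import Fermat.Agent.S17.DIV.Isolated

/-!
# S17-DIV: a generic point which moves inside one class modulo `n Div + Princ`

Let `g = genus > 0`, `y : Fin g → Ω` algebraically independent over `K`, `P i` a place with
`j`-value `y i` (`FF.exists_val_eq`, `transcendental_jF`), `E = Σ P i`; `ℓ(E) = 1`
(`ell_sum_single_eq_one`). `D₀ = n • E - c • ∞`, `c = (n-1) g`, has degree `g`: there is
`h ≠ 0` in `L(D₀)` (`FF.exists_ne_zero_mem_LSpace`). `E' = divf h + D₀ ≥ 0` has degree `g`.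

Let `S₀ = {val P j | P ∈ supp E', j regular at P}`. Every `P ∈ supp E'` is non generic over
`clo K S₀`, hence fixed by `Aut(Ω/clo K S₀)`; so `E'` is fixed (`smul_eq_of_support`) and
`val_mem_of_kfin` (for the pair `(clo K S₀, Ω)`) gives `y i ∈ clo K S₀` for all `i`.
`exists_isolated` (`r P := 0 ≤ ord_P j`, `z P := val P j`, `FF.degree_eq_sum`) gives `w ∈ supp E'`
with `E' w = 1`, `j` regular at `w`, `val w j ∉ clo K S`, `S = {val P j | P ∈ supp E', P ≠ w, …}`.
So `w` is generic over `clo K S` (`isGeneric_of_val_jF_not_mem`, `range_algebraMap_clo`).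
For `σ ∈ Aut(Ω/clo K S)`: `σ` fixes `E' - w` (support fixed pointwise), so
`σ w - w = σ E' - E' = divf (σ h) - divf h + n (σ E - E) - c (σ ∞ - ∞) ∈ NDiv`.
-/

set_option autoImplicit false
set_option linter.unusedSectionVars false

noncomputable section

namespace Fermat.Agent.S17.DIV

open AlgebraicCurve ModularCurve Fermat.Agent.GR Fermat.Agent.GR.C Fermat.Agent.S17.FF

variable {K Ω : Type} [Field K] [Field Ω] [Algebra K Ω] [IsAlgClosed K] [CharZero K]
  [IsAlgClosed Ω] [CharZero Ω] {N : ℕ} [NeZero N]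

/-- a place whose `j`-value lies in `clo K S` (or which is a pole of `j`) is fixed by
`Aut(Ω / clo K S)`. -/
theorem Moving_fixed (S : Set Ω) (b : Place Ω (FF Ω N))
    (hb : 0 ≤ b.ord (jF Ω N) → val b (jF Ω N) ∈ S) (σ : Ω ≃ₐ[clo K S] Ω) :
    gal (clo K S) N σ • b = b := by
  apply gal_smul_eq_of_not_isGeneric
  by_cases h : 0 ≤ b.ord (jF Ω N)
  · apply not_isGeneric_of_val_jF_mem h
    rw [range_algebraMap_clo]
    exact subset_clo S (hb h)
  · exact not_isGeneric_of_ord_jF_neg (not_le.1 h)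

/-- the auxiliary data: `E = Σ P i`, `E' = divf h + n E - c ∞`. -/
theorem Moving_data (n : ℕ) {g : ℕ} (hgdef : g = genus Ω (FF Ω N)) (y : Fin g → Ω)
    (hy : AlgebraicIndependent K y) :
    ∃ (E E' : Divisor Ω (FF Ω N)) (h : FF Ω N) (c : ℤ), 0 ≤ E ∧ ell E = 1 ∧ h ≠ 0 ∧ 0 ≤ E' ∧
      Divisor.degree E' = g ∧
      divf (K := Ω) h = E' - n • E + c • Finsupp.single (qPlace Ω N) 1 ∧
      ∀ i, ∃ P ∈ E.support, val P (jF Ω N) = y i := by
  classical
  have hex : ∀ i : Fin g, ∃ v : Place Ω (FF Ω N), 0 ≤ v.ord (jF Ω N) ∧ val v (jF Ω N) = y i :=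
    fun i => FF.exists_val_eq (transcendental_jF Ω N) (y i)
  choose P hP0 hPy using hex
  obtain ⟨E, hEdef⟩ : ∃ E : Divisor Ω (FF Ω N), E = ∑ i, Finsupp.single (P i) (1 : ℤ) := ⟨_, rfl⟩
  have hell : ell E = 1 := by
    rw [hEdef]
    apply ell_sum_single_eq_one (K := K) g (le_of_eq hgdef) P hP0
    have : (fun i => val (P i) (jF Ω N)) = y := funext hPy
    rw [this]
    exact hy
  have hE0 : 0 ≤ E := by
    rw [hEdef]
    apply Finset.sum_nonneg
    intro i _
    exact Finsupp.single_nonneg.2 zero_le_one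
  have hEdeg : Divisor.degree E = g := by
    rw [hEdef, map_sum]
    simp only [degree_single']
    simp
  obtain ⟨c, hc⟩ : ∃ c : ℤ, c = ((n : ℤ) - 1) * g := ⟨_, rfl⟩
  obtain ⟨D₀, hD₀⟩ : ∃ D₀ : Divisor Ω (FF Ω N),
      D₀ = n • E - c • Finsupp.single (qPlace Ω N) 1 := ⟨_, rfl⟩
  have hD₀deg : Divisor.degree D₀ = g := by
    rw [hD₀, map_sub, map_nsmul, map_zsmul, hEdeg, degree_single', hc]
    simp only [smul_eq_mul, nsmul_eq_mul]
    ring
  obtain ⟨h, hmem, h0⟩ := FF.exists_ne_zero_mem_LSpace (D := D₀)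
    (le_of_eq (by rw [hD₀deg, hgdef]))
  refine ⟨E, divf h + D₀, h, c, hE0, hell, h0, (mem_LSpace_of_ne_zero h0).1 hmem, ?_, ?_, ?_⟩
  · rw [map_add, degree_divf, zero_add, hD₀deg]
  · rw [hD₀]
    abel
  · intro i
    refine ⟨P i, ?_, hPy i⟩
    rw [Finsupp.mem_support_iff]
    have h1 : (1 : ℤ) ≤ E (P i) := by
      rw [hEdef, Finsupp.finsetSum_apply]
      calc (1 : ℤ) = Finsupp.single (P i) (1 : ℤ) (P i) := by simp
        _ ≤ ∑ j, Finsupp.single (P j) (1 : ℤ) (P i) :=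
          Finset.single_le_sum (f := fun j => Finsupp.single (P j) (1 : ℤ) (P i))
            (fun j _ => by
              show (0 : ℤ) ≤ Finsupp.single (P j) (1 : ℤ) (P i)
              rw [Finsupp.single_apply]; split_ifs <;> simp) (Finset.mem_univ i)
    omega

/-- the final computation. -/
theorem Moving_ndiv {n : ℕ} {E E' : Divisor Ω (FF Ω N)} {h : FF Ω N} {c : ℤ}
    (hdiv : divf (K := Ω) h = E' - n • E + c • Finsupp.single (qPlace Ω N) 1)
    {w : Place Ω (FF Ω N)} (hw1 : E' w = 1) (γ : SemilinearAut Ω (FF Ω N))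
    (hoo : γ • qPlace Ω N = qPlace Ω N) (hfix : ∀ v ∈ E'.support, v ≠ w → γ • v = v) :
    NDiv n (Finsupp.single (γ • w) 1 - Finsupp.single w 1 : Divisor Ω (FF Ω N)) := by
  classical
  have h1 : γ • (E' - Finsupp.single w 1) = E' - Finsupp.single w 1 := by
    apply smul_eq_of_support
    intro v hv
    have hvw : v ≠ w := by
      rintro rfl
      rw [Finsupp.mem_support_iff, Finsupp.sub_apply, hw1, Finsupp.single_eq_same] at hv
      exact hv (sub_self _)
    have hv' : v ∈ E'.support := by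
      rw [Finsupp.mem_support_iff] at hv ⊢
      rw [Finsupp.sub_apply, Finsupp.single_eq_of_ne hvw, sub_zero] at hv
      exact hv
    exact hfix v hv' hvw
  have h2 : (Finsupp.single (γ • w) 1 - Finsupp.single w 1 : Divisor Ω (FF Ω N)) =
      γ • E' - E' := by
    rw [smul_sub, SemilinearAut.smul_single] at h1
    rw [sub_eq_sub_iff_add_eq_add] at h1 ⊢
    rw [add_comm, ← h1, add_comm]
  have hE' : E' = divf h + n • E - c • Finsupp.single (qPlace Ω N) 1 := by
    rw [hdiv]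
    abel
  have h3 : γ • E' - E' = (divf (γ • h) - divf h) + n • (γ • E - E) := by
    have h4 : γ • E' = divf (γ • h) + n • (γ • E) - c • Finsupp.single (qPlace Ω N) 1 := by
      rw [hE', smul_sub, smul_add, ← divf_smul, smul_comm γ n E, smul_comm γ c,
        SemilinearAut.smul_single, hoo]
    rw [h4]
    nth_rewrite 1 [hE']
    rw [smul_sub]
    abel
  rw [h2, h3]
  exact ((ndiv_divf _).sub (ndiv_divf _)).add (ndiv_nsmul _)

theorem exists_moving {n : ℕ} (hn : 0 < n) (hK : KFin Ω N n) (hg : 0 < genus Ω (FF Ω N))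
    (hInd : ∃ y : Fin (genus Ω (FF Ω N)) → Ω, AlgebraicIndependent K y) :
    ∃ (S : Set Ω) (w : Place Ω (FF Ω N)), IsGeneric (clo K S) w ∧
      ∀ σ : Ω ≃ₐ[clo K S] Ω, NDiv n
        (Finsupp.single (gal (clo K S) N σ • w) 1 - Finsupp.single w 1 : Divisor Ω (FF Ω N)) := by
  classical
  obtain ⟨g, hgdef⟩ : ∃ g, g = genus Ω (FF Ω N) := ⟨_, rfl⟩
  rw [← hgdef] at hg hInd
  obtain ⟨y, hy⟩ := hInd
  obtain ⟨E, E', h, c, hE0, hell, h0, hE'0, hE'deg, hdiv, hP⟩ := Moving_data n hgdef y hy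
  -- step 1: the `y i` are algebraic over the coordinates of `E'`
  obtain ⟨S₀, hS₀⟩ : ∃ S₀ : Set Ω,
      S₀ = {x | ∃ a ∈ E'.support, 0 ≤ a.ord (jF Ω N) ∧ val a (jF Ω N) = x} := ⟨_, rfl⟩
  have hfix₀ : ∀ σ : Ω ≃ₐ[clo K S₀] Ω, gal (clo K S₀) N σ • E' = E' := by
    intro σ
    apply smul_eq_of_support
    intro v hv
    exact Moving_fixed S₀ v (fun h' => by rw [hS₀]; exact ⟨v, hv, h', rfl⟩) σ
  have hyS₀ : ∀ i, y i ∈ clo K S₀ := by
    intro i
    obtain ⟨P, hPs, hPy⟩ := hP i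
    have := val_mem_of_kfin (K := clo K S₀) hn hK hE0 hell h0 c hdiv hfix₀ hPs
    rw [range_algebraMap_clo, hPy] at this
    exact this
  -- step 2: an isolated point
  have hsum : (E'.sum fun _ m => m) = (g : ℤ) := by
    rw [← degree_eq_sum, hE'deg]
  rw [hS₀] at hyS₀
  obtain ⟨w, hw, hw1, hwr, hwz⟩ := exists_isolated (K := K) E' hE'0 g hg hsum
    (fun a => 0 ≤ a.ord (jF Ω N)) (fun a => val a (jF Ω N)) y hy hyS₀
  refine ⟨{x | ∃ b ∈ E'.support, b ≠ w ∧ 0 ≤ b.ord (jF Ω N) ∧ val b (jF Ω N) = x}, w, ?_, ?_⟩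
  · apply isGeneric_of_val_jF_not_mem hwr
    rw [range_algebraMap_clo]
    exact hwz
  · intro σ
    exact Moving_ndiv hdiv hw1 _ (gal_smul_qPlace σ)
      (fun v hv hvw => Moving_fixed
        {x | ∃ b ∈ E'.support, b ≠ w ∧ 0 ≤ b.ord (jF Ω N) ∧ val b (jF Ω N) = x} v
        (fun h' => ⟨v, hv, hvw, h', rfl⟩) σ)

end Fermat.Agent.S17.DIV
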