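import Fermat.Agent.S17.DIV.BaseChange
import Fermat.Agent.S17.DIV.PoleDiv

/-!
# S17-DIV: a place of `FF Ω N` is determined by its values on `FF K N` (INJ)

Suppose `w ≠ w'`. Choose `c : K` such that `x = 1/(j - c) ∈ FF K N` has no pole at `w, w'` after
base change (i.e. `c` is different from the `j`-values of `w` and `w'`; `K` is infinite). Put
`D = b • poleDiv (bc x)`, `b` large; `deg (poleDiv (bc x)) > 0`, `D w = D w' = 0`, and `D` is fixed by
`Aut(Ω/K)` (`poleDiv_smul`, `gal_smul_bc`). By `FF.ell_sub_eq'`,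
`ℓ(D - w - w') < ℓ(D - w)`: there is `f ∈ L(D)` with `ord_w f > 0` and `ord_w' f = 0`, i.e.
`val w f = 0 ≠ val w' f`. But the set of `f ∈ L(D)` with `val w f = val w' f` is an `Ω`-subspace
(all elements of `L(D)` are regular at `w` and `w'`) which contains the spanning set of
`span_bc_eq`: contradiction.
-/

set_option autoImplicit false
set_option linter.unusedSectionVars false

noncomputable section

namespace Fermat.Agent.S17.DIV

open AlgebraicCurve ModularCurve Fermat.Agent.GR Fermat.Agent.GR.C Fermat.Agent.S17.FF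

variable {K Ω : Type} [Field K] [Field Ω] [Algebra K Ω] [IsAlgClosed K] [CharZero K]
  [IsAlgClosed Ω] [CharZero Ω] {N : ℕ} [NeZero N]

/-- regularity of `1/(j - c)` at a place whose `j`-value is not `c`. -/
theorem PlaceExt_ord_nonneg (w : Place Ω (FF Ω N)) (c : Ω) (hc : c ≠ val w (jF Ω N)) :
    0 ≤ w.ord (jF Ω N - algebraMap Ω (FF Ω N) c)⁻¹ := by
  rw [Place.ord_inv]
  by_contra hlt
  have hpos : 0 < w.ord (jF Ω N - algebraMap Ω (FF Ω N) c) := by omega
  have hj0 : jF Ω N ≠ 0 := fun h0 => transcendental_jF Ω N (h0 ▸ isAlgebraic_zero)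
  have hreg : 0 ≤ w.ord (jF Ω N) := by
    have h1 := Fermat.Agent.S24.Zeros.min_ord_le_ord_add w
      (f := jF Ω N - algebraMap Ω (FF Ω N) c) (g := algebraMap Ω (FF Ω N) c)
      (by rw [sub_add_cancel]; exact hj0)
    rw [sub_add_cancel, Fermat.Agent.S24.Zeros.ord_algebraMap] at h1
    exact le_trans (le_min hpos.le le_rfl) h1
  exact hc ((val_eq_iff w hreg c).2 (Or.inr hpos)).symm

theorem PlaceExt_transcendental (c : Ω) :
    Transcendental Ω (jF Ω N - algebraMap Ω (FF Ω N) c)⁻¹ := by
  obtain ⟨v, hv, hvc⟩ := exists_val_eq (transcendental_jF Ω N) c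
  have hpos : 0 < v.ord (jF Ω N - algebraMap Ω (FF Ω N) c) := by
    rcases (val_eq_iff v hv c).1 hvc with h | h
    · exact absurd (h ▸ isAlgebraic_algebraMap c) (transcendental_jF Ω N)
    · exact h
  apply transcendental_of_ord_ne_zero (v := v)
  rw [Place.ord_inv]
  omega

theorem place_ext {w w' : Place Ω (FF Ω N)}
    (h : ∀ f : FF K N, 0 ≤ w.ord (bc N (algebraMap K Ω) f) → 0 ≤ w'.ord (bc N (algebraMap K Ω) f) →
      val w (bc N (algebraMap K Ω) f) = val w' (bc N (algebraMap K Ω) f)) : w = w' := by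
  classical
  by_contra hne
  -- choice of `c`
  have hfin : ((algebraMap K Ω) ⁻¹' {val w (jF Ω N), val w' (jF Ω N)}).Finite :=
    Set.Finite.preimage ((algebraMap K Ω).injective.injOn) (Set.toFinite _)
  obtain ⟨c, hc⟩ := hfin.exists_notMem
  simp only [Set.mem_preimage, Set.mem_insert_iff, Set.mem_singleton_iff, not_or] at hc
  set x : FF K N := (jF K N - algebraMap K (FF K N) c)⁻¹ with hx
  set X : FF Ω N := (jF Ω N - algebraMap Ω (FF Ω N) (algebraMap K Ω c))⁻¹ with hX
  have hxX : bc N (algebraMap K Ω) x = X := by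
    rw [hx, hX, map_inv₀, map_sub, bc_jF, bc_algebraMap]
  have hw : 0 ≤ w.ord X := PlaceExt_ord_nonneg w _ hc.1
  have hw' : 0 ≤ w'.ord X := PlaceExt_ord_nonneg w' _ hc.2
  have hXt : Transcendental Ω X := PlaceExt_transcendental _
  have hd : 1 ≤ Divisor.degree (poleDiv (K := Ω) X) := by
    rw [degree_poleDiv hXt]
    have := finiteDimensional_adjoin hXt
    have := Module.finrank_pos (R := IntermediateField.adjoin Ω {X}) (M := FF Ω N)
    omega
  set b : ℕ := (cBound Ω (FF Ω N) + 2).toNat with hb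
  set D : Divisor Ω (FF Ω N) := b • poleDiv (K := Ω) X with hD
  have hdeg : cBound Ω (FF Ω N) + 2 ≤ Divisor.degree D := by
    rw [hD, map_nsmul, nsmul_eq_mul]
    have h1 : cBound Ω (FF Ω N) + 2 ≤ (b : ℤ) := Int.self_le_toNat _
    have h2 : (0 : ℤ) ≤ b := Int.natCast_nonneg _
    nlinarith
  have hDw : D w = 0 := by
    rw [hD, Finsupp.smul_apply, poleDiv_apply, max_eq_left (by omega), smul_zero]
  have hDw' : D w' = 0 := by
    rw [hD, Finsupp.smul_apply, poleDiv_apply, max_eq_left (by omega), smul_zero]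
  have hDfix : ∀ σ : Ω ≃ₐ[K] Ω, gal K N σ • D = D := by
    intro σ
    rw [hD, smul_comm, ← poleDiv_smul, ← hxX, gal_smul_bc]
  -- regularity of the elements of `L(D)`
  have hreg : ∀ f ∈ LSpace D, 0 ≤ w.ord f ∧ 0 ≤ w'.ord f := by
    intro f hf
    rcases hf with rfl | hf
    · simp
    · refine ⟨?_, ?_⟩
      · have := hf w
        rwa [hDw, neg_zero] at this
      · have := hf w'
        rwa [hDw', neg_zero] at this
  -- all elements of `L(D)` have the same value at `w` and `w'`
  have hval : ∀ f ∈ LSpace D, val w f = val w' f := by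
    intro f hf
    rw [← span_bc_eq (K := K) D hDfix] at hf
    have : f ∈ LSpace D ∧ val w f = val w' f := by
      induction hf using Submodule.span_induction with
      | mem y hy =>
        obtain ⟨hy1, e, rfl⟩ := hy
        exact ⟨hy1, h e (hreg _ hy1).1 (hreg _ hy1).2⟩
      | zero =>
        refine ⟨Submodule.zero_mem _, ?_⟩
        rw [← map_zero (algebraMap Ω (FF Ω N)), val_algebraMap, val_algebraMap]
      | add y z _ _ hy hz =>
        refine ⟨Submodule.add_mem _ hy.1 hz.1, ?_⟩
        rw [val_add w (hreg _ hy.1).1 (hreg _ hz.1).1, val_add w' (hreg _ hy.1).2 (hreg _ hz.1).2,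
          hy.2, hz.2]
      | smul a y _ hy =>
        refine ⟨Submodule.smul_mem _ a hy.1, ?_⟩
        rw [Algebra.smul_def,
          val_mul w (by rw [Fermat.Agent.S24.Zeros.ord_algebraMap]) (hreg _ hy.1).1,
          val_mul w' (by rw [Fermat.Agent.S24.Zeros.ord_algebraMap]) (hreg _ hy.1).2,
          val_algebraMap, val_algebraMap, hy.2]
    exact this.2
  -- separation
  set E₁ : Divisor Ω (FF Ω N) := Finsupp.single w 1 with hE₁
  set E₂ : Divisor Ω (FF Ω N) := Finsupp.single w 1 + Finsupp.single w' 1 with hE₂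
  have hE₁0 : 0 ≤ E₁ := Finsupp.single_nonneg.2 zero_le_one
  have hE₂0 : 0 ≤ E₂ := add_nonneg hE₁0 (Finsupp.single_nonneg.2 zero_le_one)
  have hdE₁ : Divisor.degree E₁ = 1 := degree_single' w 1
  have hdE₂ : Divisor.degree E₂ = 2 := by
    rw [hE₂, map_add, degree_single', degree_single']
    norm_num
  have hl₁ := ell_sub_eq' (D := D) hE₁0 (by rw [hdE₁]; omega)
  have hl₂ := ell_sub_eq' (D := D) hE₂0 (by rw [hdE₂]; omega)
  rw [hdE₁] at hl₁
  rw [hdE₂] at hl₂
  have hex : ∃ f ∈ LSpace (D - E₁), f ∉ LSpace (D - E₂) := by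
    by_contra hcon
    push Not at hcon
    have hle : LSpace (D - E₁) ≤ LSpace (D - E₂) := hcon
    have hge : LSpace (D - E₂) ≤ LSpace (D - E₁) := by
      apply LSpace_mono
      rw [hE₂, hE₁]
      intro v
      simp only [Finsupp.sub_apply, Finsupp.add_apply]
      have : (0 : ℤ) ≤ (Finsupp.single w' (1 : ℤ)) v := by
        have h5 : (0 : Divisor Ω (FF Ω N)) ≤ Finsupp.single w' (1 : ℤ) :=
          Finsupp.single_nonneg.2 zero_le_one
        simpa using h5 v
      omega
    have heq : LSpace (D - E₁) = LSpace (D - E₂) := le_antisymm hle hge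
    have : ell (D - E₁) = ell (D - E₂) := by
      unfold ell
      rw [heq]
    omega
  obtain ⟨f, hf₁, hf₂⟩ := hex
  have hf0 : f ≠ 0 := fun h0 => hf₂ (h0 ▸ Submodule.zero_mem _)
  have hf₁' : ∀ v : Place Ω (FF Ω N), -(D - E₁) v ≤ v.ord f := by
    rcases hf₁ with h0 | h1
    · exact absurd h0 hf0
    · exact h1
  have hfD : f ∈ LSpace D := by
    refine LSpace_mono ?_ hf₁
    intro v
    have := hE₁0 v
    simp only [Finsupp.sub_apply, Finsupp.coe_zero, Pi.zero_apply] at this ⊢
    omega
  have hfw : 0 < w.ord f := by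
    have := hf₁' w
    rw [Finsupp.sub_apply, hDw, hE₁, Finsupp.single_eq_same] at this
    omega
  have hfw' : ¬ 0 < w'.ord f := by
    intro hpos
    apply hf₂
    refine Or.inr fun v => ?_
    have h1 := hf₁' v
    by_cases hv : v = w'
    · subst hv
      rw [Finsupp.sub_apply, hDw', hE₂, Finsupp.add_apply, Finsupp.single_eq_same,
        Finsupp.single_eq_of_ne (Ne.symm hne)]
      omega
    · rw [Finsupp.sub_apply, hE₂, Finsupp.add_apply, Finsupp.single_eq_of_ne (a := w') hv]
      rw [Finsupp.sub_apply, hE₁] at h1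
      omega
  have hv1 : val w f = 0 := (val_eq_zero_iff w (hreg f hfD).1).2 (Or.inr hfw)
  have hv2 : val w' f ≠ 0 := by
    intro h0
    rcases (val_eq_zero_iff w' (hreg f hfD).2).1 h0 with h1 | h1
    · exact hf0 h1
    · exact hfw' h1
  exact hv2 ((hval f hfD).symm.trans hv1)

end Fermat.Agent.S17.DIV
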