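import Fermat.Agent.S17.DIV.Defs

/-!
# S17-DIV: semilinear automorphisms and the Riemann-Roch vocabulary

Everything follows from `SemilinearAut.ord_smul : (g • v).ord (g • f) = v.ord f`,
`SemilinearAut.divisor_smul_apply`, `SemilinearAut.smul_algebraMap`.
-/

set_option autoImplicit false
set_option linter.unusedSectionVars false

noncomputable section

namespace Fermat.Agent.S17.DIV

open AlgebraicCurve ModularCurve Fermat.Agent.GR Fermat.Agent.GR.C Fermat.Agent.S17.FF

section General

variable {K F : Type*} [Field K] [Field F] [Algebra K F]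

theorem ord_smul_eq (g : SemilinearAut K F) (v : Place K F) (f : F) :
    (g • v).ord f = v.ord (g⁻¹ • f) := by
  have h := SemilinearAut.ord_smul g v (g⁻¹ • f)
  rwa [smul_inv_smul] at h

theorem smul_mem_LSpace_iff (g : SemilinearAut K F) (D : Divisor K F) (f : F) :
    g • f ∈ LSpace (g • D) ↔ f ∈ LSpace D := by
  rw [mem_LSpace, mem_LSpace, smul_eq_zero_iff_eq]
  refine or_congr Iff.rfl ⟨fun h v => ?_, fun h w => ?_⟩
  · have h1 := h (g • v)
    rwa [SemilinearAut.divisor_smul_apply_smul, SemilinearAut.ord_smul] at h1
  · have h1 := h (g⁻¹ • w)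
    rw [← SemilinearAut.divisor_smul_apply_smul g, ← SemilinearAut.ord_smul g, smul_inv_smul] at h1
    exact h1

/-- a divisor whose support is fixed pointwise is fixed. -/
theorem smul_eq_of_support (g : SemilinearAut K F) (D : Divisor K F)
    (h : ∀ v ∈ D.support, g • v = v) : g • D = D := by
  ext w
  rw [SemilinearAut.divisor_smul_apply]
  by_cases h1 : g⁻¹ • w ∈ D.support
  · have h2 := h _ h1
    rw [smul_inv_smul] at h2
    rw [← h2]
  · by_cases h2 : w ∈ D.support
    · have h3 := h _ h2
      have h4 : g⁻¹ • w = w := by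
        rw [inv_smul_eq_iff, h3]
      rw [h4]
    · rw [Finsupp.notMem_support_iff.1 h1, Finsupp.notMem_support_iff.1 h2]

theorem smul_nonneg (g : SemilinearAut K F) {D : Divisor K F} (h : 0 ≤ D) : 0 ≤ g • D := by
  intro w
  rw [SemilinearAut.divisor_smul_apply]
  exact h _

theorem mem_support_smul_iff (g : SemilinearAut K F) (D : Divisor K F) (v : Place K F) :
    g • v ∈ (g • D).support ↔ v ∈ D.support := by
  rw [Finsupp.mem_support_iff, Finsupp.mem_support_iff, SemilinearAut.divisor_smul_apply_smul]

variable [IsAlgClosed K] [CharZero K] [IsFF K F]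

/-- `f ↦ g • f` is a `baseAut g`-semilinear bijection `L(D) → L(g • D)`. -/
theorem ell_smul (g : SemilinearAut K F) (D : Divisor K F) : ell (g • D) = ell D := by
  let j : LSpace D ≃+ LSpace (g • D) :=
    { toFun := fun x => ⟨g • (x : F), (smul_mem_LSpace_iff g D x).2 x.2⟩
      invFun := fun y => ⟨g⁻¹ • (y : F), by
        rw [← smul_mem_LSpace_iff g D, smul_inv_smul]
        exact y.2⟩
      left_inv := fun x => Subtype.ext (inv_smul_smul g (x : F))
      right_inv := fun y => Subtype.ext (smul_inv_smul g (y : F))
      map_add' := fun x y => Subtype.ext (smul_add g (x : F) (y : F)) }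
  have h := rank_eq_of_equiv_equiv (SemilinearAut.baseAut g) j (SemilinearAut.baseAut g).bijective
    (fun r m => Subtype.ext (by
      change g • (r • (m : F)) = SemilinearAut.baseAut g r • (g • (m : F))
      rw [Algebra.smul_def, Algebra.smul_def, smul_mul', SemilinearAut.smul_algebraMap]))
  exact (congrArg Cardinal.toNat h).symm

theorem divf_smul (g : SemilinearAut K F) (f : F) : divf (K := K) (g • f) = g • divf f := by
  ext w
  rw [SemilinearAut.divisor_smul_apply, divf_apply, divf_apply]
  have h := SemilinearAut.ord_smul g (g⁻¹ • w) f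
  rwa [smul_inv_smul] at h

theorem poleDiv_smul (g : SemilinearAut K F) (f : F) :
    poleDiv (K := K) (g • f) = g • poleDiv f := by
  ext w
  rw [SemilinearAut.divisor_smul_apply, poleDiv_apply, poleDiv_apply]
  have h := SemilinearAut.ord_smul g (g⁻¹ • w) f
  rw [smul_inv_smul] at h
  rw [h]

theorem val_smul (g : SemilinearAut K F) (v : Place K F) (f : F) :
    val (g • v) (g • f) = SemilinearAut.baseAut g (val v f) := by
  by_cases hf : 0 ≤ v.ord f
  · have hf' : 0 ≤ (g • v).ord (g • f) := by rwa [SemilinearAut.ord_smul]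
    rw [val_eq_iff _ hf', ← SemilinearAut.smul_algebraMap, ← smul_sub, SemilinearAut.ord_smul]
    rcases (val_eq_iff v hf (val v f)).1 rfl with h | h
    · left
      rw [← h]
    · right
      exact h
  · have h1 : f ∉ v.toValuationSubring := fun h => hf (Fermat.Agent.S24.Zeros.ord_nonneg_of_mem v h)
    have h2 : g • f ∉ (g • v).toValuationSubring := fun h => hf (by
      have := Fermat.Agent.S24.Zeros.ord_nonneg_of_mem _ h
      rwa [SemilinearAut.ord_smul] at this)
    unfold val
    rw [dif_neg h1, dif_neg h2, map_zero]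

end General

end Fermat.Agent.S17.DIV
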