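import Fermat.Agent.S17.DIV.PlaceExt

/-!
# S17-DIV: constant places `up Ω v` and generic places

A place `w` of `FF Ω N` is either generic over `K` (trivial on `FF K N`) or of the form `up Ω v`
for a unique place `v` of `FF K N`.

* `val_up`: `r = val v f` satisfies `0 < ord_v (f - r)` or `f = r` (`FF.val_eq_iff`); apply `ord_up`.
* `exists_eq_up`: `GR.C.exists_restrict_place` gives `(v, e)` with `ord_w (bc f) = e * ord_v f`,
  `e ≠ 0` as `w` is not generic; so `bc f` regular at `w` iff `f` regular at `v`, and the values of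
  `w` and `up Ω v` on `bc f` are both `val v f`; conclude by `place_ext`.
* `gal_smul_up`: `place_ext` + `val_gal_smul_bc` + `val_up`.
* `poleDiv_bc`: evaluate at `w`; either `w = up Ω v` (`Finsupp.mapDomain_apply`) or `w` is generic and
  not in the range of `up` (`Finsupp.mapDomain_notin_range`).
-/

set_option autoImplicit false
set_option linter.unusedSectionVars false

noncomputable section

namespace Fermat.Agent.S17.DIV

open AlgebraicCurve ModularCurve Fermat.Agent.GR Fermat.Agent.GR.C Fermat.Agent.S17.FF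

variable {K Ω : Type} [Field K] [Field Ω] [Algebra K Ω] [IsAlgClosed K] [CharZero K]
  [IsAlgClosed Ω] [CharZero Ω] {N : ℕ} [NeZero N]

/-- values along a (possibly ramified) restriction of places. -/
theorem Up_val_of_ord {w : Place Ω (FF Ω N)} {v : Place K (FF K N)} {e : ℕ} (he : e ≠ 0)
    (h : ∀ f : FF K N, w.ord (bc N (algebraMap K Ω) f) = (e : ℤ) * v.ord f) {f : FF K N}
    (hf : 0 ≤ v.ord f) :
    val w (bc N (algebraMap K Ω) f) = algebraMap K Ω (val v f) := by
  have he' : (0 : ℤ) < e := by exact_mod_cast Nat.pos_of_ne_zero he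
  have hf' : 0 ≤ w.ord (bc N (algebraMap K Ω) f) := by
    rw [h]
    exact mul_nonneg he'.le hf
  rw [val_eq_iff w hf', ← bc_algebraMap, ← map_sub, h]
  rcases (val_eq_iff v hf (val v f)).1 rfl with h1 | h1
  · exact Or.inl (congrArg _ h1)
  · exact Or.inr (mul_pos he' h1)

theorem Up_val_of_neg {k F : Type*} [Field k] [Field F] [Algebra k F] [IsAlgClosed k] [CharZero k]
    [IsFF k F] (v : Place k F) {f : F} (hf : v.ord f < 0) : val v f = 0 := by
  unfold val
  rw [dif_neg]
  rw [Fermat.Agent.S24.Zeros.mem_iff_ord_nonneg']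
  omega

theorem Up_eq_up_of_ord' {w : Place Ω (FF Ω N)} {v : Place K (FF K N)} {e : ℕ} (he : e ≠ 0)
    (h : ∀ f : FF K N, w.ord (bc N (algebraMap K Ω) f) = (e : ℤ) * v.ord f) : w = up Ω v := by
  refine place_ext (K := K) fun f _ hf => ?_
  rw [ord_up] at hf
  rw [Up_val_of_ord he h hf,
    Up_val_of_ord (w := up Ω v) (v := v) one_ne_zero (fun g => by rw [ord_up, Nat.cast_one, one_mul])
      hf]

theorem Up_eq_up_of_ord {w : Place Ω (FF Ω N)} {v : Place K (FF K N)}
    (h : ∀ f : FF K N, w.ord (bc N (algebraMap K Ω) f) = v.ord f) : w = up Ω v :=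
  Up_eq_up_of_ord' one_ne_zero fun f => by rw [h, Nat.cast_one, one_mul]

theorem val_up (v : Place K (FF K N)) {f : FF K N} (hf : 0 ≤ v.ord f) :
    val (up Ω v) (bc N (algebraMap K Ω) f) = algebraMap K Ω (val v f) := by
  exact Up_val_of_ord one_ne_zero (fun g => by rw [ord_up, Nat.cast_one, one_mul]) hf

theorem up_injective : Function.Injective (up Ω : Place K (FF K N) → Place Ω (FF Ω N)) := by
  intro v v' h
  apply Place.ext
  ext f
  rw [Fermat.Agent.S24.Zeros.mem_iff_ord_nonneg', Fermat.Agent.S24.Zeros.mem_iff_ord_nonneg',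
    ← ord_up (Ω := Ω) v f, ← ord_up (Ω := Ω) v' f, h]

theorem not_isGeneric_up (v : Place K (FF K N)) : ¬ IsGeneric K (up Ω v) := by
  intro h
  obtain ⟨π, hπ⟩ := exists_uniformizer v
  have h1 := h π
  rw [ord_up, hπ] at h1
  exact one_ne_zero h1

theorem exists_eq_up {w : Place Ω (FF Ω N)} (hw : ¬ IsGeneric K w) :
    ∃ v : Place K (FF K N), w = up Ω v := by
  rcases exists_restrict_place (K := K) (Ω := Ω) (bc N (algebraMap K Ω))
    (fun a => ⟨algebraMap K Ω a, bc_algebraMap N _ a⟩) w with h | ⟨v, e, h⟩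
  · exact absurd h hw
  · refine ⟨v, Up_eq_up_of_ord' ?_ h⟩
    rintro rfl
    exact hw fun f => by rw [h, Nat.cast_zero, zero_mul]

theorem gal_smul_up (σ : Ω ≃ₐ[K] Ω) (v : Place K (FF K N)) :
    gal K N σ • up Ω v = up Ω v := by
  refine place_ext (K := K) fun f _ hf => ?_
  rw [val_gal_smul_bc]
  rw [ord_up] at hf
  rw [val_up v hf, σ.commutes]

/-- (FixPlace) a non generic place is fixed by `Aut(Ω/K)`. -/
theorem gal_smul_eq_of_not_isGeneric {w : Place Ω (FF Ω N)} (hw : ¬ IsGeneric K w)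
    (σ : Ω ≃ₐ[K] Ω) : gal K N σ • w = w := by
  obtain ⟨v, rfl⟩ := exists_eq_up hw
  exact gal_smul_up σ v

theorem not_isGeneric_of_ord_jF_neg {w : Place Ω (FF Ω N)} (h : w.ord (jF Ω N) < 0) :
    ¬ IsGeneric K w := by
  intro hg
  have h1 := hg (jF K N)
  rw [bc_jF] at h1
  omega

theorem not_isGeneric_of_val_jF_mem {w : Place Ω (FF Ω N)} (h : 0 ≤ w.ord (jF Ω N))
    (hc : val w (jF Ω N) ∈ Set.range (algebraMap K Ω)) : ¬ IsGeneric K w := by
  intro hg
  obtain ⟨c, hc⟩ := hc
  rcases (val_eq_iff w h (algebraMap K Ω c)).1 hc.symm with h1 | h1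
  · exact transcendental_jF Ω N (h1 ▸ isAlgebraic_algebraMap _)
  · rw [← bc_algebraMap, ← bc_jF N (algebraMap K Ω), ← map_sub, hg] at h1
    exact lt_irrefl _ h1

theorem isGeneric_of_val_jF_not_mem {w : Place Ω (FF Ω N)} (h : 0 ≤ w.ord (jF Ω N))
    (hc : val w (jF Ω N) ∉ Set.range (algebraMap K Ω)) : IsGeneric K w := by
  by_contra hg
  obtain ⟨v, rfl⟩ := exists_eq_up hg
  rw [← bc_jF N (algebraMap K Ω)] at h hc
  rw [ord_up] at h
  rw [val_up v h] at hc
  exact hc ⟨_, rfl⟩

/-- the values of a non generic place on `FF K N` lie in `K`. -/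
theorem val_bc_mem_range {w : Place Ω (FF Ω N)} (hw : ¬ IsGeneric K w) (f : FF K N) :
    val w (bc N (algebraMap K Ω) f) ∈ Set.range (algebraMap K Ω) := by
  obtain ⟨v, rfl⟩ := exists_eq_up hw
  by_cases hf : 0 ≤ v.ord f
  · exact ⟨_, (val_up v hf).symm⟩
  · refine ⟨0, ?_⟩
    rw [map_zero, Up_val_of_neg]
    rw [ord_up]
    omega

theorem up_qPlace : up Ω (qPlace K N) = qPlace Ω N := by
  refine (Up_eq_up_of_ord fun f => ?_).symm
  rw [qPlace_ord, qPlace_ord, coe_bc, coeffMap_order]

theorem poleDiv_bc (t : FF K N) :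
    poleDiv (K := Ω) (bc N (algebraMap K Ω) t) = Finsupp.mapDomain (up Ω) (poleDiv (K := K) t) := by
  refine Finsupp.ext fun w => ?_
  by_cases hw : IsGeneric K w
  · rw [Finsupp.mapDomain_of_notMem_range, poleDiv_apply, hw t]
    · simp
    · rintro ⟨v, rfl⟩
      exact not_isGeneric_up v hw
  · obtain ⟨v, rfl⟩ := exists_eq_up hw
    rw [Finsupp.mapDomain_apply up_injective, poleDiv_apply, poleDiv_apply, ord_up]

theorem degree_mapDomain_up (D : Divisor K (FF K N)) :
    Divisor.degree (Finsupp.mapDomain (up Ω) D : Divisor Ω (FF Ω N)) = Divisor.degree D := by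
  rw [degree_eq_sum, degree_eq_sum, Finsupp.sum_mapDomain_index (fun _ => rfl) (fun _ _ _ => rfl)]

theorem transcendental_bc {t : FF K N} (ht : Transcendental K t) :
    Transcendental Ω (bc N (algebraMap K Ω) t) := by
  have h : ∃ v : Place K (FF K N), v.ord t ≠ 0 := by
    by_contra hcon
    push Not at hcon
    obtain ⟨c, hc⟩ := exists_const_of_ord_nonneg (K := K) (f := t) fun v => (hcon v).ge
    exact ht (hc ▸ isAlgebraic_algebraMap _)
  obtain ⟨v, hv⟩ := h
  refine transcendental_of_ord_ne_zero (v := up Ω v) ?_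
  rw [ord_up]
  exact hv

/-- evaluation at a generic place is an embedding `FF K N → Ω` over `K`. -/
def evalHom (w : Place Ω (FF Ω N)) (hw : IsGeneric K w) : FF K N →ₐ[K] Ω where
  toFun f := val w (bc N (algebraMap K Ω) f)
  map_one' := by
    rw [map_one, ← map_one (algebraMap Ω (FF Ω N)), val_algebraMap]
  map_mul' f g := by
    rw [map_mul, val_mul w (hw f).ge (hw g).ge]
  map_zero' := by
    rw [map_zero, ← map_zero (algebraMap Ω (FF Ω N)), val_algebraMap]
  map_add' f g := by
    rw [map_add, val_add w (hw f).ge (hw g).ge]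
  commutes' a := by
    rw [bc_algebraMap, val_algebraMap]

theorem evalHom_apply (w : Place Ω (FF Ω N)) (hw : IsGeneric K w) (f : FF K N) :
    evalHom w hw f = val w (bc N (algebraMap K Ω) f) := rfl

end Fermat.Agent.S17.DIV
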